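import Mathlib

/-!
# Row LT, tower T7, station C2.7 (`CutIntC305`), ASSET (helper750), OFF-MAIN, MATHLIB ONLY:
# integrability of the cut-off orbital integrand

`G` a locally compact second countable Hausdorff group, `T` a closed subgroup with a Haar measure
`μT`, `β ≥ 0` continuous with `∫_T β(t x) dμT(t) = 1` for all `x` (a cut-off function), `μ` a Haar
measure of `G`.

* `lintegral_avg_mul_cut750`: `∫⁻_G (∫⁻_T 1_E(t⁻¹ y) dμT(t)) β(y) dμ(y) = μ(E)` (Tonelli twice, left
  invariance of `μ`; no unimodularity, no commutativity).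
* `integrable_mul_cut_of_section750`: if `Φ` is bounded, a.e. strongly measurable and vanishes
  outside `T · Ω₀`, `Ω₀` compact, then `Φ · β` is `μ`-integrable.
-/

set_option autoImplicit false
set_option linter.unusedSectionVars false
set_option linter.style.haveILetI false

open MeasureTheory MeasureTheory.Measure Topology Set
open scoped ENNReal Pointwise

noncomputable section

namespace Fermat.Agent.LT.T7.H750

section Group

variable {G : Type*} [Group G] [TopologicalSpace G] [IsTopologicalGroup G]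
  [LocallyCompactSpace G] [SecondCountableTopology G] [T2Space G]
  [MeasurableSpace G] [BorelSpace G]

/-- A closed subgroup of a `σ`-compact group is `σ`-compact. -/
theorem sigmaCompact_sub750 (T : Subgroup G) (hT : IsClosed (T : Set G)) :
    SigmaCompactSpace T :=
  (hT.isClosedEmbedding_subtypeVal).sigmaCompactSpace

/-- The cut-off function has average one in the `ℝ≥0∞` form. -/
theorem lintegral_cut750 (T : Subgroup G) [MeasurableSpace T] (μT : Measure T)
    (β : G → ℝ) (hβ0 : ∀ x, 0 ≤ β x)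
    (hβ1 : ∀ x : G, ∫ t : T, β ((t : G) * x) ∂μT = 1) (x : G) :
    ∫⁻ t : T, ENNReal.ofReal (β ((t : G) * x)) ∂μT = 1 := by
  rw [← ofReal_integral_eq_lintegral_ofReal (integrable_of_integral_eq_one (hβ1 x))
    (Filter.Eventually.of_forall fun t => hβ0 _), hβ1 x, ENNReal.ofReal_one]

/-- **Tonelli.**  `∫⁻_G (∫⁻_T 1_E(t⁻¹ y) dμT(t)) β(y) dμ(y) = μ(E)`. -/
theorem lintegral_avg_mul_cut750 (T : Subgroup G) (hT : IsClosed (T : Set G))
    [MeasurableSpace T] [BorelSpace T]
    (μ : Measure G) [IsHaarMeasure μ] (μT : Measure T) [IsHaarMeasure μT]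
    (β : G → ℝ) (hβc : Continuous β) (hβ0 : ∀ x, 0 ≤ β x)
    (hβ1 : ∀ x : G, ∫ t : T, β ((t : G) * x) ∂μT = 1)
    (E : Set G) (hE : MeasurableSet E) :
    ∫⁻ y, (∫⁻ t : T, E.indicator (fun _ => (1 : ℝ≥0∞)) ((t : G)⁻¹ * y) ∂μT)
        * ENNReal.ofReal (β y) ∂μ = μ E := by
  haveI : SigmaCompactSpace T := sigmaCompact_sub750 T hT
  have hval : Continuous (fun t : T => (t : G)) := continuous_subtype_val
  -- measurability of the two kernels
  have hm1 : Measurable (fun p : G × T =>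
      E.indicator (fun _ => (1 : ℝ≥0∞)) ((p.2 : G)⁻¹ * p.1) * ENNReal.ofReal (β p.1)) := by
    have h1 : Measurable (fun p : G × T => (p.2 : G)⁻¹ * p.1) :=
      (((hval.comp continuous_snd).inv).mul continuous_fst).measurable
    have h2 : Measurable (fun p : G × T =>
        E.indicator (fun _ => (1 : ℝ≥0∞)) ((p.2 : G)⁻¹ * p.1)) :=
      (measurable_const.indicator hE).comp h1
    exact h2.mul (hβc.comp continuous_fst).measurable.ennreal_ofReal
  have hm2 : Measurable (fun p : T × G =>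
      E.indicator (fun _ => (1 : ℝ≥0∞)) p.2 * ENNReal.ofReal (β ((p.1 : G) * p.2))) := by
    have h2 : Measurable (fun p : T × G => E.indicator (fun _ => (1 : ℝ≥0∞)) p.2) :=
      (measurable_const.indicator hE).comp measurable_snd
    exact h2.mul
      (hβc.comp ((hval.comp continuous_fst).mul continuous_snd)).measurable.ennreal_ofReal
  calc ∫⁻ y, (∫⁻ t : T, E.indicator (fun _ => (1 : ℝ≥0∞)) ((t : G)⁻¹ * y) ∂μT)
          * ENNReal.ofReal (β y) ∂μ
      = ∫⁻ y, ∫⁻ t : T, E.indicator (fun _ => (1 : ℝ≥0∞)) ((t : G)⁻¹ * y)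
          * ENNReal.ofReal (β y) ∂μT ∂μ := by
        refine lintegral_congr fun y => ?_
        rw [lintegral_mul_const]
        exact (measurable_const.indicator hE).comp
          (((hval.inv).mul continuous_const).measurable)
    _ = ∫⁻ t : T, ∫⁻ y, E.indicator (fun _ => (1 : ℝ≥0∞)) ((t : G)⁻¹ * y)
          * ENNReal.ofReal (β y) ∂μ ∂μT :=
        lintegral_lintegral_swap hm1.aemeasurable
    _ = ∫⁻ t : T, ∫⁻ y, E.indicator (fun _ => (1 : ℝ≥0∞)) y
          * ENNReal.ofReal (β ((t : G) * y)) ∂μ ∂μT := by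
        refine lintegral_congr fun t => ?_
        have h := lintegral_mul_left_eq_self (μ := μ)
          (fun y => E.indicator (fun _ => (1 : ℝ≥0∞)) ((t : G)⁻¹ * y) * ENNReal.ofReal (β y))
          (t : G)
        rw [← h]
        refine lintegral_congr fun y => ?_
        simp only [inv_mul_cancel_left]
    _ = ∫⁻ y, ∫⁻ t : T, E.indicator (fun _ => (1 : ℝ≥0∞)) y
          * ENNReal.ofReal (β ((t : G) * y)) ∂μT ∂μ :=
        lintegral_lintegral_swap hm2.aemeasurable
    _ = ∫⁻ y, E.indicator (fun _ => (1 : ℝ≥0∞)) y ∂μ := by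
        refine lintegral_congr fun y => ?_
        rw [lintegral_const_mul' _ _ (by
          by_cases hy : y ∈ E <;> simp [hy]), lintegral_cut750 T μT β hβ0 hβ1 y, mul_one]
    _ = μ E := by
        rw [lintegral_indicator hE, lintegral_const, one_mul, Measure.restrict_apply_univ]

/-- **Integrability of the cut-off integrand.**  If `Φ` is bounded and vanishes outside
`T · Ω₀` with `Ω₀` compact, then `Φ · β` is integrable for every cut-off function `β`. -/
theorem integrable_mul_cut_of_section750 (T : Subgroup G) (hT : IsClosed (T : Set G))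
    [MeasurableSpace T] [BorelSpace T]
    (μ : Measure G) [IsHaarMeasure μ] (μT : Measure T) [IsHaarMeasure μT]
    (β : G → ℝ) (hβc : Continuous β) (hβ0 : ∀ x, 0 ≤ β x)
    (hβ1 : ∀ x : G, ∫ t : T, β ((t : G) * x) ∂μT = 1)
    (Ω₀ : Set G) (hΩ : IsCompact Ω₀)
    (Φ : G → ℂ) (hΦm : AEStronglyMeasurable Φ μ) (M : ℝ) (hΦb : ∀ y, ‖Φ y‖ ≤ M)
    (hΦs : ∀ y, Φ y ≠ 0 → ∃ t ∈ T, ∃ ω ∈ Ω₀, y = t * ω) :
    Integrable (fun y => Φ y * ((β y : ℝ) : ℂ)) μ := by
  haveI : SigmaCompactSpace T := sigmaCompact_sub750 T hT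
  have hval : Continuous (fun t : T => (t : G)) := continuous_subtype_val
  -- a compact neighbourhood of one
  obtain ⟨V, hVc, hV1⟩ := exists_compact_mem_nhds (1 : G)
  set E : Set G := V * Ω₀ with hEdef
  have hEc : IsCompact E := hVc.mul hΩ
  have hEm : MeasurableSet E := hEc.isClosed.measurableSet
  -- the set `A = {s ∈ T : s⁻¹ ∈ V}` has positive measure
  set A : Set T := {s : T | ((s : G))⁻¹ ∈ V} with hAdef
  have hAm : MeasurableSet A :=
    (hVc.isClosed.preimage (hval.inv)).measurableSet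
  have hA1 : A ∈ 𝓝 (1 : T) := by
    have hc : ContinuousAt (fun s : T => ((s : G))⁻¹) 1 := (hval.inv).continuousAt
    have : V ∈ 𝓝 ((fun s : T => ((s : G))⁻¹) 1) := by simpa using hV1
    exact hc this
  have hApos : 0 < μT A := measure_pos_of_mem_nhds μT hA1
  set c : ℝ≥0∞ := min (μT A) 1 with hcdef
  have hc0 : c ≠ 0 := by
    rw [hcdef]
    exact (lt_min hApos one_pos).ne'
  have hctop : c ≠ ⊤ := (lt_of_le_of_lt (min_le_right _ _) ENNReal.one_lt_top).ne
  -- the average of the indicator of `E`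
  set Ψ : G → ℝ≥0∞ :=
    fun y => ∫⁻ t : T, E.indicator (fun _ => (1 : ℝ≥0∞)) ((t : G)⁻¹ * y) ∂μT with hΨdef
  have hΨ : ∀ y, Φ y ≠ 0 → c ≤ Ψ y := by
    intro y hy
    obtain ⟨t₀, ht₀, ω, hω, rfl⟩ := hΦs y hy
    set t₀' : T := ⟨t₀, ht₀⟩
    have hsub : ∀ t : T, ((fun s : T => t₀'⁻¹ * s) ⁻¹' A).indicator (fun _ => (1 : ℝ≥0∞)) t
        ≤ E.indicator (fun _ => (1 : ℝ≥0∞)) ((t : G)⁻¹ * (t₀ * ω)) := by
      intro t
      by_cases ht : t ∈ (fun s : T => t₀'⁻¹ * s) ⁻¹' A
      · have h1 : ((t : G))⁻¹ * t₀ ∈ V := by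
          have h2 : ((t₀'⁻¹ * t : T) : G)⁻¹ ∈ V := ht
          simpa [t₀', mul_inv_rev] using h2
        have h3 : (t : G)⁻¹ * (t₀ * ω) ∈ E := by
          rw [← mul_assoc]
          exact Set.mul_mem_mul h1 hω
        rw [Set.indicator_of_mem ht, Set.indicator_of_mem h3]
      · rw [Set.indicator_of_notMem ht]
        exact bot_le
    calc c ≤ μT A := min_le_left _ _
      _ = μT ((fun s : T => t₀'⁻¹ * s) ⁻¹' A) := (measure_preimage_mul μT t₀'⁻¹ A).symm
      _ = ∫⁻ t : T, ((fun s : T => t₀'⁻¹ * s) ⁻¹' A).indicator (fun _ => (1 : ℝ≥0∞)) t ∂μT := by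
          rw [lintegral_indicator ((measurable_const_mul _) hAm), lintegral_const, one_mul,
            Measure.restrict_apply_univ]
      _ ≤ Ψ (t₀ * ω) := lintegral_mono hsub
  -- the bound
  have hM0 : 0 ≤ M := le_trans (norm_nonneg _) (hΦb 1)
  have hbound : ∀ y, ‖Φ y * ((β y : ℝ) : ℂ)‖ₑ
      ≤ (ENNReal.ofReal M * c⁻¹) * (Ψ y * ENNReal.ofReal (β y)) := by
    intro y
    by_cases hy : Φ y = 0
    · simp [hy]
    · have h1 : ‖Φ y * ((β y : ℝ) : ℂ)‖ₑ = ENNReal.ofReal ‖Φ y‖ * ENNReal.ofReal (β y) := by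
        rw [enorm_mul, ← ofReal_norm, ← ofReal_norm, Complex.norm_real,
          Real.norm_of_nonneg (hβ0 y)]
      have h2 : (1 : ℝ≥0∞) ≤ c⁻¹ * Ψ y := by
        calc (1 : ℝ≥0∞) = c⁻¹ * c := (ENNReal.inv_mul_cancel hc0 hctop).symm
          _ ≤ c⁻¹ * Ψ y := by gcongr; exact hΨ y hy
      calc ‖Φ y * ((β y : ℝ) : ℂ)‖ₑ = ENNReal.ofReal ‖Φ y‖ * ENNReal.ofReal (β y) := h1
        _ ≤ ENNReal.ofReal M * ENNReal.ofReal (β y) := by
            gcongr; exact hΦb y
        _ = ENNReal.ofReal M * 1 * ENNReal.ofReal (β y) := by rw [mul_one]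
        _ ≤ ENNReal.ofReal M * (c⁻¹ * Ψ y) * ENNReal.ofReal (β y) := by gcongr
        _ = (ENNReal.ofReal M * c⁻¹) * (Ψ y * ENNReal.ofReal (β y)) := by ring
  refine ⟨hΦm.mul (Complex.continuous_ofReal.comp hβc).aestronglyMeasurable, ?_⟩
  rw [hasFiniteIntegral_iff_enorm]
  calc ∫⁻ y, ‖Φ y * ((β y : ℝ) : ℂ)‖ₑ ∂μ
      ≤ ∫⁻ y, (ENNReal.ofReal M * c⁻¹) * (Ψ y * ENNReal.ofReal (β y)) ∂μ :=
        lintegral_mono hbound
    _ = (ENNReal.ofReal M * c⁻¹) * ∫⁻ y, Ψ y * ENNReal.ofReal (β y) ∂μ :=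
        lintegral_const_mul' _ _ (ENNReal.mul_ne_top ENNReal.ofReal_ne_top
          (ENNReal.inv_ne_top.mpr hc0))
    _ = (ENNReal.ofReal M * c⁻¹) * μ E := by
        rw [hΨdef, lintegral_avg_mul_cut750 T hT μ μT β hβc hβ0 hβ1 E hEm]
    _ < ⊤ := ENNReal.mul_lt_top (ENNReal.mul_lt_top ENNReal.ofReal_lt_top
          (ENNReal.inv_lt_top.mpr (pos_iff_ne_zero.mpr hc0))) hEc.measure_lt_top

end Group

end Fermat.Agent.LT.T7.H750
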