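import Mathlib
import Fermat.Agent.LT.T7.H750.OrbIntCore

/-!
# Row LT, tower T7, station C2.7 (`CutIntC305`), ASSET (helper750), OFF-MAIN, MATHLIB ONLY:
# the orbit of a regular element of `GL₂(k)` is closed, in the form of a COMPACT SECTION

`k` a Hausdorff topological field, `γ ∈ GL₂(k)` regular (`tr² - 4 det ≠ 0`), `T` its centraliser.

* `rowMat_mul750`: for a row vector `w` the matrix `R(w, A)` with rows `w`, `w A` satisfies
  `R(w, A) A = N R(w, A)`, `N` the companion matrix of `(tr A, det A)` (Cayley-Hamilton).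
* `exists_det_rowMat_ne750`: if `A` is regular, one of `w = (1,0), (0,1), (1,1)` has
  `det R(w, A) ≠ 0`.
* `exists_compact_section750`: for every compact `C ⊆ GL₂(k)` there is a compact `Ω₀` with
  `{y : y⁻¹ γ y ∈ C} ⊆ T Ω₀` (`ω = R(e, γ)⁻¹ R(w, c)` conjugates `c = y⁻¹ γ y` to `γ`; finite open
  cover of the compact set of the `c` by the sets `det R(w, c) ≠ 0`).
* `integrable_orbit_cut750`: for `F` continuous of compact support, every Haar measure `μ` of
  `GL₂(k)` (locally compact, second countable), every Haar measure `μT` of the centraliser and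
  every cut-off function `β` (continuous, `≥ 0`, `∫_T β(t x) dμT(t) = 1`):
  `y ↦ F(y⁻¹ γ y z) β(y)` is `μ`-integrable (`z` any element).
-/

set_option autoImplicit false
set_option linter.unusedSectionVars false
set_option linter.style.haveILetI false

open MeasureTheory MeasureTheory.Measure Topology Set
open scoped ENNReal Pointwise

noncomputable section

namespace Fermat.Agent.LT.T7.H750

/-! ## 1. Algebra -/

section Algebra

variable {R : Type*} [CommRing R]

/-- The matrix with rows `w`, `w A`. -/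
def rowMat750 (w : Fin 2 → R) (A : Matrix (Fin 2) (Fin 2) R) : Matrix (Fin 2) (Fin 2) R :=
  !![w 0, w 1; w 0 * A 0 0 + w 1 * A 1 0, w 0 * A 0 1 + w 1 * A 1 1]

/-- The companion matrix of trace `τ` and determinant `Δ`. -/
def comp750 (τ Δ : R) : Matrix (Fin 2) (Fin 2) R := !![0, 1; -Δ, τ]

/-- The three test vectors `(1,0)`, `(0,1)`, `(1,1)`. -/
def wv750 (i : Fin 3) : Fin 2 → R := ![![1, 0], ![0, 1], ![1, 1]] i

theorem rowMat_mul750 (w : Fin 2 → R) (A : Matrix (Fin 2) (Fin 2) R) :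
    rowMat750 w A * A = comp750 A.trace A.det * rowMat750 w A := by
  ext i j
  fin_cases i <;> fin_cases j <;>
    simp [rowMat750, comp750, Matrix.mul_apply, Fin.sum_univ_two, Matrix.trace_fin_two,
      Matrix.det_fin_two] <;> ring

theorem det_rowMat750 (w : Fin 2 → R) (A : Matrix (Fin 2) (Fin 2) R) :
    (rowMat750 w A).det
      = w 0 * (w 0 * A 0 1 + w 1 * A 1 1) - w 1 * (w 0 * A 0 0 + w 1 * A 1 0) := by
  simp [rowMat750, Matrix.det_fin_two]

theorem exists_det_rowMat_ne750 (A : Matrix (Fin 2) (Fin 2) R)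
    (h : A.trace ^ 2 - 4 * A.det ≠ 0) : ∃ i : Fin 3, (rowMat750 (wv750 i) A).det ≠ 0 := by
  by_contra hcon
  push Not at hcon
  have h0 := hcon 0
  have h1 := hcon 1
  have h2 := hcon 2
  rw [det_rowMat750] at h0 h1 h2
  simp [wv750] at h0 h1 h2
  apply h
  rw [Matrix.trace_fin_two, Matrix.det_fin_two]
  have e1 : A 0 1 = 0 := h0
  have e2 : A 1 0 = 0 := h1
  have e3 : A 1 1 = A 0 0 := by
    have := h2
    rw [e1, e2] at this
    linear_combination this
  rw [e1, e2, e3]
  ring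

end Algebra

/-! ## 2. The compact section -/

section GL2

variable {k : Type*} [Field k] [TopologicalSpace k] [IsTopologicalDivisionRing k] [T2Space k]

theorem continuous_rowMat750 (i : Fin 3) :
    Continuous fun c : GL (Fin 2) k =>
      rowMat750 (wv750 i) (c : Matrix (Fin 2) (Fin 2) k) := by
  have hv : Continuous fun c : GL (Fin 2) k => (c : Matrix (Fin 2) (Fin 2) k) :=
    Units.continuous_val
  have he : ∀ a b : Fin 2, Continuous fun c : GL (Fin 2) k =>
      (c : Matrix (Fin 2) (Fin 2) k) a b := fun a b => hv.matrix_elem a b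
  refine continuous_matrix fun a b => ?_
  fin_cases a <;> fin_cases b <;> simp only [rowMat750] <;>
    simp <;> fun_prop

theorem continuous_det_rowMat750 (i : Fin 3) :
    Continuous fun c : GL (Fin 2) k =>
      (rowMat750 (wv750 i) (c : Matrix (Fin 2) (Fin 2) k)).det :=
  (continuous_rowMat750 i).matrix_det

/-- Conjugation preserves trace and determinant. -/
theorem trace_det_conj750 (γ y : GL (Fin 2) k) :
    ((y⁻¹ * γ * y : GL (Fin 2) k) : Matrix (Fin 2) (Fin 2) k).trace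
        = (γ : Matrix (Fin 2) (Fin 2) k).trace ∧
      ((y⁻¹ * γ * y : GL (Fin 2) k) : Matrix (Fin 2) (Fin 2) k).det
        = (γ : Matrix (Fin 2) (Fin 2) k).det := by
  have hy : (y : Matrix (Fin 2) (Fin 2) k) * ((y⁻¹ : GL (Fin 2) k) : Matrix (Fin 2) (Fin 2) k)
      = 1 := by
    rw [← Units.val_mul, mul_inv_cancel, Units.val_one]
  constructor
  · rw [Units.val_mul, Units.val_mul, Matrix.trace_mul_comm, ← Matrix.mul_assoc, hy,
      Matrix.one_mul]
  · rw [Units.val_mul, Units.val_mul, Matrix.det_mul, Matrix.det_mul]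
    have h1 : ((y⁻¹ : GL (Fin 2) k) : Matrix (Fin 2) (Fin 2) k).det
        * (y : Matrix (Fin 2) (Fin 2) k).det = 1 := by
      rw [mul_comm, ← Matrix.det_mul, hy, Matrix.det_one]
    calc ((y⁻¹ : GL (Fin 2) k) : Matrix (Fin 2) (Fin 2) k).det
          * (γ : Matrix (Fin 2) (Fin 2) k).det * (y : Matrix (Fin 2) (Fin 2) k).det
        = (γ : Matrix (Fin 2) (Fin 2) k).det
          * (((y⁻¹ : GL (Fin 2) k) : Matrix (Fin 2) (Fin 2) k).det
            * (y : Matrix (Fin 2) (Fin 2) k).det) := by ring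
      _ = (γ : Matrix (Fin 2) (Fin 2) k).det := by rw [h1, mul_one]

/-- The conjugating element: `γ ω = ω c` for `ω = R(e, γ)⁻¹ R(w, c)`. -/
theorem conj_section750 (γ c Bu Mu : GL (Fin 2) k) (e w : Fin 2 → k)
    (hB : (Bu : Matrix (Fin 2) (Fin 2) k) = rowMat750 e (γ : Matrix (Fin 2) (Fin 2) k))
    (hM : (Mu : Matrix (Fin 2) (Fin 2) k) = rowMat750 w (c : Matrix (Fin 2) (Fin 2) k))
    (htr : (c : Matrix (Fin 2) (Fin 2) k).trace = (γ : Matrix (Fin 2) (Fin 2) k).trace)
    (hdet : (c : Matrix (Fin 2) (Fin 2) k).det = (γ : Matrix (Fin 2) (Fin 2) k).det) :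
    γ * (Bu⁻¹ * Mu) = (Bu⁻¹ * Mu) * c := by
  have h1 : Bu * γ * Bu⁻¹ * Mu = Mu * c := by
    apply Units.ext
    have hBi : (Bu : Matrix (Fin 2) (Fin 2) k)
        * ((Bu⁻¹ : GL (Fin 2) k) : Matrix (Fin 2) (Fin 2) k) = 1 := by
      rw [← Units.val_mul, mul_inv_cancel, Units.val_one]
    have e1 : (Bu : Matrix (Fin 2) (Fin 2) k) * (γ : Matrix (Fin 2) (Fin 2) k)
        = comp750 (γ : Matrix (Fin 2) (Fin 2) k).trace (γ : Matrix (Fin 2) (Fin 2) k).det
          * (Bu : Matrix (Fin 2) (Fin 2) k) := by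
      rw [hB]; exact rowMat_mul750 e _
    have e2 : (Mu : Matrix (Fin 2) (Fin 2) k) * (c : Matrix (Fin 2) (Fin 2) k)
        = comp750 (γ : Matrix (Fin 2) (Fin 2) k).trace (γ : Matrix (Fin 2) (Fin 2) k).det
          * (Mu : Matrix (Fin 2) (Fin 2) k) := by
      rw [hM, ← htr, ← hdet]; exact rowMat_mul750 w _
    rw [Units.val_mul, Units.val_mul, Units.val_mul, Units.val_mul, e1, e2,
      Matrix.mul_assoc (comp750 _ _), hBi, Matrix.mul_one]
  calc γ * (Bu⁻¹ * Mu) = Bu⁻¹ * (Bu * γ * Bu⁻¹ * Mu) := by group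
    _ = Bu⁻¹ * (Mu * c) := by rw [h1]
    _ = (Bu⁻¹ * Mu) * c := by group

/-- **THE COMPACT SECTION.**  For `γ` regular and `C` compact there is a compact `Ω₀` such that
every `y` with `y⁻¹ γ y ∈ C` is `t ω` with `t` in the centraliser of `γ` and `ω ∈ Ω₀`. -/
theorem exists_compact_section750 (γ : GL (Fin 2) k)
    (hreg : (γ : Matrix (Fin 2) (Fin 2) k).trace ^ 2
      - 4 * (γ : Matrix (Fin 2) (Fin 2) k).det ≠ 0)
    (C : Set (GL (Fin 2) k)) (hC : IsCompact C) :
    ∃ Ω₀ : Set (GL (Fin 2) k), IsCompact Ω₀ ∧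
      ∀ y : GL (Fin 2) k, y⁻¹ * γ * y ∈ C →
        ∃ t ω : GL (Fin 2) k, t⁻¹ * γ * t = γ ∧ ω ∈ Ω₀ ∧ y = t * ω := by
  classical
  obtain ⟨i₀, hB⟩ := exists_det_rowMat_ne750 (γ : Matrix (Fin 2) (Fin 2) k) hreg
  set Bu : GL (Fin 2) k := Matrix.GeneralLinearGroup.mkOfDetNeZero _ hB with hBu
  have hv : Continuous fun c : GL (Fin 2) k => (c : Matrix (Fin 2) (Fin 2) k) :=
    Units.continuous_val
  -- the compact set of the `c`
  set C' : Set (GL (Fin 2) k) := C ∩ {c | (c : Matrix (Fin 2) (Fin 2) k).trace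
      = (γ : Matrix (Fin 2) (Fin 2) k).trace ∧
    (c : Matrix (Fin 2) (Fin 2) k).det = (γ : Matrix (Fin 2) (Fin 2) k).det} with hC'def
  have hcl : IsClosed {c : GL (Fin 2) k | (c : Matrix (Fin 2) (Fin 2) k).trace
      = (γ : Matrix (Fin 2) (Fin 2) k).trace ∧
    (c : Matrix (Fin 2) (Fin 2) k).det = (γ : Matrix (Fin 2) (Fin 2) k).det} :=
    (isClosed_eq hv.matrix_trace continuous_const).inter
      (isClosed_eq hv.matrix_det continuous_const)
  have hC' : IsCompact C' := hC.inter_right hcl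
  -- the open cover
  set U : Fin 3 → Set (GL (Fin 2) k) :=
    fun i => {c | (rowMat750 (wv750 i) (c : Matrix (Fin 2) (Fin 2) k)).det ≠ 0} with hUdef
  have hUo : ∀ i, IsOpen (U i) := fun i =>
    isOpen_ne_fun (continuous_det_rowMat750 i) continuous_const
  have hcov : C' ⊆ ⋃ i ∈ (Finset.univ : Finset (Fin 3)), U i := by
    intro c hc
    have hregc : (c : Matrix (Fin 2) (Fin 2) k).trace ^ 2
        - 4 * (c : Matrix (Fin 2) (Fin 2) k).det ≠ 0 := by
      rw [hc.2.1, hc.2.2]; exact hreg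
    obtain ⟨i, hi⟩ := exists_det_rowMat_ne750 _ hregc
    exact Set.mem_biUnion (Finset.mem_univ i) hi
  obtain ⟨K, hKc, hKU, hKeq⟩ :=
    hC'.finite_compact_cover Finset.univ U (fun i _ => hUo i) hcov
  -- the sections
  let f : ∀ i : Fin 3, K i → GL (Fin 2) k := fun i c =>
    Bu⁻¹ * Matrix.GeneralLinearGroup.mkOfDetNeZero
      (rowMat750 (wv750 i) ((c : GL (Fin 2) k) : Matrix (Fin 2) (Fin 2) k)) (hKU i c.2)
  have hf : ∀ i, Continuous (f i) := by
    intro i
    refine continuous_const.mul ?_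
    rw [Units.continuous_iff]
    have hr : Continuous fun c : K i =>
        rowMat750 (wv750 i) ((c : GL (Fin 2) k) : Matrix (Fin 2) (Fin 2) k) :=
      (continuous_rowMat750 i).comp continuous_subtype_val
    refine ⟨hr, ?_⟩
    have hinv : (fun c : K i => ((Matrix.GeneralLinearGroup.mkOfDetNeZero
        (rowMat750 (wv750 i) ((c : GL (Fin 2) k) : Matrix (Fin 2) (Fin 2) k))
          (hKU i c.2))⁻¹ : GL (Fin 2) k).val)
        = fun c : K i =>
          ((rowMat750 (wv750 i) ((c : GL (Fin 2) k) : Matrix (Fin 2) (Fin 2) k)).det)⁻¹ •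
            (rowMat750 (wv750 i)
              ((c : GL (Fin 2) k) : Matrix (Fin 2) (Fin 2) k)).adjugate := by
      funext c
      rw [Matrix.coe_units_inv]
      change (rowMat750 (wv750 i) ((c : GL (Fin 2) k) : Matrix (Fin 2) (Fin 2) k))⁻¹ = _
      rw [Matrix.inv_def, Ring.inverse_eq_inv']
    rw [hinv]
    exact (hr.matrix_det.inv₀ fun c => hKU i c.2).smul hr.matrix_adjugate
  refine ⟨⋃ i, Set.range (f i), ?_, ?_⟩
  · refine isCompact_iUnion fun i => ?_
    haveI : CompactSpace (K i) := isCompact_iff_compactSpace.mp (hKc i)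
    exact isCompact_range (hf i)
  · intro y hy
    obtain ⟨htr, hdet⟩ := trace_det_conj750 γ y
    have hcC' : y⁻¹ * γ * y ∈ C' := ⟨hy, htr, hdet⟩
    rw [hKeq] at hcC'
    obtain ⟨i, -, hi⟩ := Set.mem_iUnion₂.mp hcC'
    set ω : GL (Fin 2) k := f i ⟨y⁻¹ * γ * y, hi⟩ with hω
    have hconj : γ * ω = ω * (y⁻¹ * γ * y) :=
      conj_section750 γ (y⁻¹ * γ * y) Bu _ (wv750 i₀) (wv750 i) rfl rfl htr hdet
    refine ⟨y * ω⁻¹, ω, ?_, Set.mem_iUnion.mpr ⟨i, ⟨_, rfl⟩⟩, by group⟩
    calc (y * ω⁻¹)⁻¹ * γ * (y * ω⁻¹) = ω * (y⁻¹ * γ * y) * ω⁻¹ := by group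
      _ = γ * ω * ω⁻¹ := by rw [hconj]
      _ = γ := by group

end GL2

/-! ## 3. Integrability -/

section Integrable

variable {k : Type*} [Field k] [TopologicalSpace k] [IsTopologicalDivisionRing k] [T2Space k]
  [LocallyCompactSpace (GL (Fin 2) k)] [SecondCountableTopology (GL (Fin 2) k)]

/-- **INTEGRABILITY OF THE CUT-OFF ORBITAL INTEGRAND** (general subgroup form).  `γ` regular,
`T` the centraliser of `γ`, `z` any element, `F` continuous of compact support, `β` a cut-off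
function of `T`: `y ↦ F(y⁻¹ γ y z) β(y)` is integrable for every Haar measure of `GL₂(k)`. -/
theorem integrable_orbit_cut750 [MeasurableSpace (GL (Fin 2) k)] [BorelSpace (GL (Fin 2) k)]
    (γ : GL (Fin 2) k)
    (hreg : (γ : Matrix (Fin 2) (Fin 2) k).trace ^ 2
      - 4 * (γ : Matrix (Fin 2) (Fin 2) k).det ≠ 0)
    (T : Subgroup (GL (Fin 2) k)) (hT : ∀ x : GL (Fin 2) k, x ∈ T ↔ x⁻¹ * γ * x = γ)
    [MeasurableSpace T] [BorelSpace T]
    (μ : Measure (GL (Fin 2) k)) [IsHaarMeasure μ] (μT : Measure T) [IsHaarMeasure μT]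
    (β : GL (Fin 2) k → ℝ) (hβc : Continuous β) (hβ0 : ∀ x, 0 ≤ β x)
    (hβ1 : ∀ x : GL (Fin 2) k, ∫ t : T, β ((t : GL (Fin 2) k) * x) ∂μT = 1)
    (F : GL (Fin 2) k → ℂ) (hF : Continuous F) (hFc : HasCompactSupport F)
    (z : GL (Fin 2) k) :
    Integrable (fun y : GL (Fin 2) k => F (y⁻¹ * γ * y * z) * ((β y : ℝ) : ℂ)) μ := by
  -- `T` is closed
  have hTcl : IsClosed (T : Set (GL (Fin 2) k)) := by
    have h : (T : Set (GL (Fin 2) k)) = {x | x⁻¹ * γ * x = γ} := by
      ext x; exact hT x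
    rw [h]
    exact isClosed_eq ((continuous_inv.mul continuous_const).mul continuous_id) continuous_const
  -- the compact set `C = (supp F) z⁻¹`
  have hCc : IsCompact ((fun g : GL (Fin 2) k => g * z⁻¹) '' tsupport F) :=
    hFc.isCompact.image (continuous_id.mul continuous_const)
  obtain ⟨Ω₀, hΩ, hsec⟩ := exists_compact_section750 γ hreg _ hCc
  obtain ⟨M, hM⟩ := hF.bounded_above_of_compact_support hFc
  have hΦc : Continuous fun y : GL (Fin 2) k => F (y⁻¹ * γ * y * z) :=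
    hF.comp ((((continuous_inv.mul continuous_const).mul continuous_id)).mul continuous_const)
  refine integrable_mul_cut_of_section750 T hTcl μ μT β hβc hβ0 hβ1 Ω₀ hΩ
    (fun y => F (y⁻¹ * γ * y * z)) hΦc.aestronglyMeasurable M (fun y => hM _) ?_
  intro y hy
  have hmem : y⁻¹ * γ * y ∈ (fun g : GL (Fin 2) k => g * z⁻¹) '' tsupport F :=
    ⟨y⁻¹ * γ * y * z, subset_tsupport F hy, by group⟩
  obtain ⟨t, ω, ht, hω, rfl⟩ := hsec y hmem
  exact ⟨t, (hT t).mpr ht, ω, hω, rfl⟩

end Integrable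

end Fermat.Agent.LT.T7.H750
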