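import Mathlib
import Fermat.Agent.LT.T7.H750.OrbSection

/-!
# Row LT, tower T7, F/Q mirror (station `UpFactQ`, infinite place), ASSET (helper750), OFF-MAIN,
# MATHLIB ONLY: algebra for the TWISTED closed orbit in `GL₂(ℂ)` (twist = complex conjugation)

* `exists_smul_of_comm750`: a matrix commuting with a non-scalar `2 × 2` matrix `A` over a field is
  `p + q A`; `comm_of_comm_regular750`: the centraliser of a regular matrix is commutative.
* `exists_det_three750`: for every `M ∈ M₂(ℂ)` one of `a + ā M`, `a ∈ {1, i, 1 + i}`, is invertible.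
* `exists_real_of_conj750`: an element of `GL₂(ℂ)` fixed by the complex conjugation comes from
  `GL₂(ℝ)`.
-/

set_option autoImplicit false
set_option linter.unusedSectionVars false
set_option linter.style.haveILetI false

open scoped ComplexConjugate

noncomputable section

namespace Fermat.Agent.LT.T7.H750

/-! ## 1. The centraliser of a regular matrix is commutative -/

section Comm

variable {k : Type*} [Field k]

theorem nonscalar_of_regular750 (A : Matrix (Fin 2) (Fin 2) k)
    (h : A.trace ^ 2 - 4 * A.det ≠ 0) : A 0 1 ≠ 0 ∨ A 1 0 ≠ 0 ∨ A 0 0 ≠ A 1 1 := by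
  by_contra hcon
  push Not at hcon
  obtain ⟨e1, e2, e3⟩ := hcon
  apply h
  rw [Matrix.trace_fin_two, Matrix.det_fin_two, e1, e2, e3]
  ring

theorem exists_smul_of_comm750 (A X : Matrix (Fin 2) (Fin 2) k)
    (hA : A 0 1 ≠ 0 ∨ A 1 0 ≠ 0 ∨ A 0 0 ≠ A 1 1) (h : X * A = A * X) :
    ∃ p q : k, X = p • (1 : Matrix (Fin 2) (Fin 2) k) + q • A := by
  have h00 := congrFun (congrFun h 0) 0
  have h01 := congrFun (congrFun h 0) 1
  have h10 := congrFun (congrFun h 1) 0
  have h11 := congrFun (congrFun h 1) 1
  simp only [Matrix.mul_apply, Fin.sum_univ_two] at h00 h01 h10 h11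
  rcases hA with hb | hc | had
  · refine ⟨X 0 0 - X 0 1 / A 0 1 * A 0 0, X 0 1 / A 0 1, ?_⟩
    ext i j
    fin_cases i <;> fin_cases j <;>
      simp only [Fin.zero_eta, Fin.mk_one, Fin.isValue, Matrix.add_apply, Matrix.smul_apply,
        Matrix.one_apply_eq, Matrix.one_apply_ne, ne_eq, zero_ne_one, one_ne_zero,
        not_false_eq_true, smul_eq_mul, mul_one, mul_zero, zero_add]
    · ring
    · field_simp
    · field_simp
      linear_combination -h00
    · field_simp
      linear_combination -h01
  · refine ⟨X 1 1 - X 1 0 / A 1 0 * A 1 1, X 1 0 / A 1 0, ?_⟩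
    ext i j
    fin_cases i <;> fin_cases j <;>
      simp only [Fin.zero_eta, Fin.mk_one, Fin.isValue, Matrix.add_apply, Matrix.smul_apply,
        Matrix.one_apply_eq, Matrix.one_apply_ne, ne_eq, zero_ne_one, one_ne_zero,
        not_false_eq_true, smul_eq_mul, mul_one, mul_zero, zero_add]
    · field_simp
      linear_combination -h10
    · field_simp
      linear_combination h00
    · field_simp
    · ring
  · have had' : A 0 0 - A 1 1 ≠ 0 := sub_ne_zero.mpr had
    refine ⟨X 0 0 - (X 0 0 - X 1 1) / (A 0 0 - A 1 1) * A 0 0,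
      (X 0 0 - X 1 1) / (A 0 0 - A 1 1), ?_⟩
    ext i j
    fin_cases i <;> fin_cases j <;>
      simp only [Fin.zero_eta, Fin.mk_one, Fin.isValue, Matrix.add_apply, Matrix.smul_apply,
        Matrix.one_apply_eq, Matrix.one_apply_ne, ne_eq, zero_ne_one, one_ne_zero,
        not_false_eq_true, smul_eq_mul, mul_one, mul_zero, zero_add]
    · ring
    · field_simp
      linear_combination -h01
    · field_simp
      linear_combination h10
    · field_simp
      ring

/-- The centraliser of a regular `2 × 2` matrix is commutative. -/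
theorem comm_of_comm_regular750 (A X Y : Matrix (Fin 2) (Fin 2) k)
    (hA : A.trace ^ 2 - 4 * A.det ≠ 0) (hX : X * A = A * X) (hY : Y * A = A * Y) :
    X * Y = Y * X := by
  obtain ⟨p, q, rfl⟩ := exists_smul_of_comm750 A X (nonscalar_of_regular750 A hA) hX
  rw [add_mul, mul_add, Matrix.smul_mul, Matrix.mul_smul, Matrix.smul_mul, Matrix.mul_smul,
    Matrix.one_mul, Matrix.mul_one, hY]

end Comm

/-! ## 2. Three points -/

/-- The three coefficients `1`, `i`, `1 + i`. -/
def av750 (j : Fin 3) : ℂ := ![1, Complex.I, 1 + Complex.I] j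

theorem exists_det_three750 (M : Matrix (Fin 2) (Fin 2) ℂ) :
    ∃ j : Fin 3, (av750 j • (1 : Matrix (Fin 2) (Fin 2) ℂ) + conj (av750 j) • M).det ≠ 0 := by
  by_contra hcon
  push Not at hcon
  have h0 := hcon 0
  have h1 := hcon 1
  have h2 := hcon 2
  simp only [av750, Matrix.det_fin_two, Matrix.add_apply, Matrix.smul_apply, smul_eq_mul,
    Matrix.one_apply_eq, Matrix.one_apply_ne, ne_eq, zero_ne_one, one_ne_zero,
    not_false_eq_true, mul_one, mul_zero, zero_add, Matrix.cons_val_zero, Matrix.cons_val_one,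
    Matrix.cons_val_two, Matrix.head_cons, Matrix.tail_cons, map_one, Complex.conj_I, map_add,
    Fin.isValue, one_mul] at h0 h1 h2
  have hI : Complex.I * Complex.I = -1 := Complex.I_mul_I
  have key : 4 * Complex.I = 0 := by
    linear_combination h2 - (1 - Complex.I) * h0 - (1 + Complex.I) * h1
      + Complex.I * (1 - (M 0 0 + M 1 1) + (M 0 0 * M 1 1 - M 0 1 * M 1 0)) * hI
  exact Complex.I_ne_zero (by simpa using key)

end Fermat.Agent.LT.T7.H750
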