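import Mathlib
import Fermat.Agent.LT.T7.H750.OrbSection
import Fermat.Agent.LT.T7.H750.TwAlg

/-!
# Row LT, tower T7, F/Q mirror (station `UpFactQ`, infinite place), ASSET (helper750), OFF-MAIN,
# MATHLIB ONLY: the TWISTED closed orbit in `GL₂(ℂ)` and the integrability of the twisted cut-off
# orbital integrand

Twist = complex conjugation `cj750` on `GL₂(ℂ)`, `re750 : GL₂(ℝ) → GL₂(ℂ)`.

* `integrable_mul_cut_of_section_hom750`: the integrability lemma of `OrbIntCore.lean` for a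
  continuous homomorphism `ι : H → G` in place of a closed subgroup (cut-off functions normalised
  against a Haar measure of `H`).
* `exists_compact_section_tw750`: `δ ∈ GL₂(ℂ)` with `δ δ̄ = γ₁ ∈ GL₂(ℝ)` regular, `C` compact: there
  is a compact `Ω₀` such that every `x` with `x⁻¹ δ x̄ ∈ C` is `t ω`, `t` in the centraliser of
  `γ₁` in `GL₂(ℝ)`, `ω ∈ Ω₀`.
* **`integrable_tw_orbit_cut750`**: `x ↦ Φ(x⁻¹ δ x̄) β'(x)` is integrable on `GL₂(ℂ)` (`Φ` continuous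
  of compact support, `β'` a continuous cut-off function normalised against a Haar measure of
  the centraliser of `γ₁` in `GL₂(ℝ)`).
-/

set_option autoImplicit false
set_option linter.unusedSectionVars false
set_option linter.style.haveILetI false

open MeasureTheory MeasureTheory.Measure Topology Set
open scoped ENNReal Pointwise ComplexConjugate

noncomputable section

namespace Fermat.Agent.LT.T7.H750

/-! ## 1. The integrability lemma for a homomorphism -/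

section Hom

variable {G : Type*} [Group G] [TopologicalSpace G] [IsTopologicalGroup G]
  [LocallyCompactSpace G] [SecondCountableTopology G] [T2Space G]
  [MeasurableSpace G] [BorelSpace G]
  {H : Type*} [Group H] [TopologicalSpace H] [IsTopologicalGroup H]
  [SecondCountableTopology H] [SigmaCompactSpace H] [MeasurableSpace H] [BorelSpace H]

theorem lintegral_cut_hom750 (ι : H →* G) (μH : Measure H)
    (β : G → ℝ) (hβ0 : ∀ x, 0 ≤ β x)
    (hβ1 : ∀ x : G, ∫ t : H, β (ι t * x) ∂μH = 1) (x : G) :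
    ∫⁻ t : H, ENNReal.ofReal (β (ι t * x)) ∂μH = 1 := by
  rw [← ofReal_integral_eq_lintegral_ofReal (integrable_of_integral_eq_one (hβ1 x))
    (Filter.Eventually.of_forall fun t => hβ0 _), hβ1 x, ENNReal.ofReal_one]

theorem lintegral_avg_mul_cut_hom750 (ι : H →* G) (hι : Continuous ι)
    (μ : Measure G) [IsHaarMeasure μ] (μH : Measure H) [IsHaarMeasure μH]
    (β : G → ℝ) (hβc : Continuous β) (hβ0 : ∀ x, 0 ≤ β x)
    (hβ1 : ∀ x : G, ∫ t : H, β (ι t * x) ∂μH = 1)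
    (E : Set G) (hE : MeasurableSet E) :
    ∫⁻ y, (∫⁻ t : H, E.indicator (fun _ => (1 : ℝ≥0∞)) ((ι t)⁻¹ * y) ∂μH)
        * ENNReal.ofReal (β y) ∂μ = μ E := by
  have hm1 : Measurable (fun p : G × H =>
      E.indicator (fun _ => (1 : ℝ≥0∞)) ((ι p.2)⁻¹ * p.1) * ENNReal.ofReal (β p.1)) := by
    have h1 : Measurable (fun p : G × H => (ι p.2)⁻¹ * p.1) :=
      (((hι.comp continuous_snd).inv).mul continuous_fst).measurable
    have h2 : Measurable (fun p : G × H =>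
        E.indicator (fun _ => (1 : ℝ≥0∞)) ((ι p.2)⁻¹ * p.1)) :=
      (measurable_const.indicator hE).comp h1
    exact h2.mul (hβc.comp continuous_fst).measurable.ennreal_ofReal
  have hm2 : Measurable (fun p : H × G =>
      E.indicator (fun _ => (1 : ℝ≥0∞)) p.2 * ENNReal.ofReal (β (ι p.1 * p.2))) := by
    have h2 : Measurable (fun p : H × G => E.indicator (fun _ => (1 : ℝ≥0∞)) p.2) :=
      (measurable_const.indicator hE).comp measurable_snd
    exact h2.mul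
      (hβc.comp ((hι.comp continuous_fst).mul continuous_snd)).measurable.ennreal_ofReal
  calc ∫⁻ y, (∫⁻ t : H, E.indicator (fun _ => (1 : ℝ≥0∞)) ((ι t)⁻¹ * y) ∂μH)
          * ENNReal.ofReal (β y) ∂μ
      = ∫⁻ y, ∫⁻ t : H, E.indicator (fun _ => (1 : ℝ≥0∞)) ((ι t)⁻¹ * y)
          * ENNReal.ofReal (β y) ∂μH ∂μ := by
        refine lintegral_congr fun y => ?_
        rw [lintegral_mul_const]
        exact (measurable_const.indicator hE).comp
          (((hι.inv).mul continuous_const).measurable)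
    _ = ∫⁻ t : H, ∫⁻ y, E.indicator (fun _ => (1 : ℝ≥0∞)) ((ι t)⁻¹ * y)
          * ENNReal.ofReal (β y) ∂μ ∂μH :=
        lintegral_lintegral_swap hm1.aemeasurable
    _ = ∫⁻ t : H, ∫⁻ y, E.indicator (fun _ => (1 : ℝ≥0∞)) y
          * ENNReal.ofReal (β (ι t * y)) ∂μ ∂μH := by
        refine lintegral_congr fun t => ?_
        have h := lintegral_mul_left_eq_self (μ := μ)
          (fun y => E.indicator (fun _ => (1 : ℝ≥0∞)) ((ι t)⁻¹ * y) * ENNReal.ofReal (β y))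
          (ι t)
        rw [← h]
        refine lintegral_congr fun y => ?_
        simp only [inv_mul_cancel_left]
    _ = ∫⁻ y, ∫⁻ t : H, E.indicator (fun _ => (1 : ℝ≥0∞)) y
          * ENNReal.ofReal (β (ι t * y)) ∂μH ∂μ :=
        lintegral_lintegral_swap hm2.aemeasurable
    _ = ∫⁻ y, E.indicator (fun _ => (1 : ℝ≥0∞)) y ∂μ := by
        refine lintegral_congr fun y => ?_
        rw [lintegral_const_mul' _ _ (by
          by_cases hy : y ∈ E <;> simp [hy]), lintegral_cut_hom750 ι μH β hβ0 hβ1 y, mul_one]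
    _ = μ E := by
        rw [lintegral_indicator hE, lintegral_const, one_mul, Measure.restrict_apply_univ]

/-- **Integrability of the cut-off integrand, homomorphism form.** -/
theorem integrable_mul_cut_of_section_hom750 (ι : H →* G) (hι : Continuous ι)
    (μ : Measure G) [IsHaarMeasure μ] (μH : Measure H) [IsHaarMeasure μH]
    (β : G → ℝ) (hβc : Continuous β) (hβ0 : ∀ x, 0 ≤ β x)
    (hβ1 : ∀ x : G, ∫ t : H, β (ι t * x) ∂μH = 1)
    (Ω₀ : Set G) (hΩ : IsCompact Ω₀)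
    (Φ : G → ℂ) (hΦm : AEStronglyMeasurable Φ μ) (M : ℝ) (hΦb : ∀ y, ‖Φ y‖ ≤ M)
    (hΦs : ∀ y, Φ y ≠ 0 → ∃ t : H, ∃ ω ∈ Ω₀, y = ι t * ω) :
    Integrable (fun y => Φ y * ((β y : ℝ) : ℂ)) μ := by
  obtain ⟨V, hVc, hV1⟩ := exists_compact_mem_nhds (1 : G)
  set E : Set G := V * Ω₀ with hEdef
  have hEc : IsCompact E := hVc.mul hΩ
  have hEm : MeasurableSet E := hEc.isClosed.measurableSet
  set A : Set H := {s : H | (ι s)⁻¹ ∈ V} with hAdef
  have hAm : MeasurableSet A :=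
    (hVc.isClosed.preimage (hι.inv)).measurableSet
  have hA1 : A ∈ 𝓝 (1 : H) := by
    have hc : ContinuousAt (fun s : H => (ι s)⁻¹) 1 := (hι.inv).continuousAt
    have : V ∈ 𝓝 ((fun s : H => (ι s)⁻¹) 1) := by simpa using hV1
    exact hc this
  have hApos : 0 < μH A := measure_pos_of_mem_nhds μH hA1
  set c : ℝ≥0∞ := min (μH A) 1 with hcdef
  have hc0 : c ≠ 0 := by
    rw [hcdef]
    exact (lt_min hApos one_pos).ne'
  have hctop : c ≠ ⊤ := (lt_of_le_of_lt (min_le_right _ _) ENNReal.one_lt_top).ne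
  set Ψ : G → ℝ≥0∞ :=
    fun y => ∫⁻ t : H, E.indicator (fun _ => (1 : ℝ≥0∞)) ((ι t)⁻¹ * y) ∂μH with hΨdef
  have hΨ : ∀ y, Φ y ≠ 0 → c ≤ Ψ y := by
    intro y hy
    obtain ⟨t₀, ω, hω, rfl⟩ := hΦs y hy
    have hsub : ∀ t : H, ((fun s : H => t₀⁻¹ * s) ⁻¹' A).indicator (fun _ => (1 : ℝ≥0∞)) t
        ≤ E.indicator (fun _ => (1 : ℝ≥0∞)) ((ι t)⁻¹ * (ι t₀ * ω)) := by
      intro t
      by_cases ht : t ∈ (fun s : H => t₀⁻¹ * s) ⁻¹' A
      · have h1 : (ι t)⁻¹ * ι t₀ ∈ V := by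
          have h2 : (ι (t₀⁻¹ * t))⁻¹ ∈ V := ht
          simpa [map_mul, map_inv, mul_inv_rev] using h2
        have h3 : (ι t)⁻¹ * (ι t₀ * ω) ∈ E := by
          rw [← mul_assoc]
          exact Set.mul_mem_mul h1 hω
        rw [Set.indicator_of_mem ht, Set.indicator_of_mem h3]
      · rw [Set.indicator_of_notMem ht]
        exact bot_le
    calc c ≤ μH A := min_le_left _ _
      _ = μH ((fun s : H => t₀⁻¹ * s) ⁻¹' A) := (measure_preimage_mul μH t₀⁻¹ A).symm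
      _ = ∫⁻ t : H, ((fun s : H => t₀⁻¹ * s) ⁻¹' A).indicator (fun _ => (1 : ℝ≥0∞)) t ∂μH := by
          rw [lintegral_indicator ((measurable_const_mul _) hAm), lintegral_const, one_mul,
            Measure.restrict_apply_univ]
      _ ≤ Ψ (ι t₀ * ω) := lintegral_mono hsub
  have hM0 : 0 ≤ M := le_trans (norm_nonneg _) (hΦb 1)
  have hbound : ∀ y, ‖Φ y * ((β y : ℝ) : ℂ)‖ₑ
      ≤ (ENNReal.ofReal M * c⁻¹) * (Ψ y * ENNReal.ofReal (β y)) := by
    intro y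
    by_cases hy : Φ y = 0
    · simp [hy]
    · have h1 : ‖Φ y * ((β y : ℝ) : ℂ)‖ₑ = ENNReal.ofReal ‖Φ y‖ * ENNReal.ofReal (β y) := by
        rw [enorm_mul, ← ofReal_norm, ← ofReal_norm, Complex.norm_real,
          Real.norm_of_nonneg (hβ0 y)]
      have h2 : (1 : ℝ≥0∞) ≤ c⁻¹ * Ψ y := by
        calc (1 : ℝ≥0∞) = c⁻¹ * c := (ENNReal.inv_mul_cancel hc0 hctop).symm
          _ ≤ c⁻¹ * Ψ y := by gcongr; exact hΨ y hy
      calc ‖Φ y * ((β y : ℝ) : ℂ)‖ₑ = ENNReal.ofReal ‖Φ y‖ * ENNReal.ofReal (β y) := h1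
        _ ≤ ENNReal.ofReal M * ENNReal.ofReal (β y) := by
            gcongr; exact hΦb y
        _ = ENNReal.ofReal M * 1 * ENNReal.ofReal (β y) := by rw [mul_one]
        _ ≤ ENNReal.ofReal M * (c⁻¹ * Ψ y) * ENNReal.ofReal (β y) := by gcongr
        _ = (ENNReal.ofReal M * c⁻¹) * (Ψ y * ENNReal.ofReal (β y)) := by ring
  refine ⟨hΦm.mul (Complex.continuous_ofReal.comp hβc).aestronglyMeasurable, ?_⟩
  rw [hasFiniteIntegral_iff_enorm]
  calc ∫⁻ y, ‖Φ y * ((β y : ℝ) : ℂ)‖ₑ ∂μ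
      ≤ ∫⁻ y, (ENNReal.ofReal M * c⁻¹) * (Ψ y * ENNReal.ofReal (β y)) ∂μ :=
        lintegral_mono hbound
    _ = (ENNReal.ofReal M * c⁻¹) * ∫⁻ y, Ψ y * ENNReal.ofReal (β y) ∂μ :=
        lintegral_const_mul' _ _ (ENNReal.mul_ne_top ENNReal.ofReal_ne_top
          (ENNReal.inv_ne_top.mpr hc0))
    _ = (ENNReal.ofReal M * c⁻¹) * μ E := by
        rw [hΨdef, lintegral_avg_mul_cut_hom750 ι hι μ μH β hβc hβ0 hβ1 E hEm]
    _ < ⊤ := ENNReal.mul_lt_top (ENNReal.mul_lt_top ENNReal.ofReal_lt_top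
          (ENNReal.inv_lt_top.mpr (pos_iff_ne_zero.mpr hc0))) hEc.measure_lt_top

end Hom

/-! ## 2. The complex conjugation and the real points -/

/-- The complex conjugation of `GL₂(ℂ)`. -/
def cj750 : GL (Fin 2) ℂ →* GL (Fin 2) ℂ :=
  Matrix.GeneralLinearGroup.map ((starRingAut : ℂ ≃+* ℂ) : ℂ →+* ℂ)

/-- `GL₂(ℝ) → GL₂(ℂ)`. -/
def re750 : GL (Fin 2) ℝ →* GL (Fin 2) ℂ := Matrix.GeneralLinearGroup.map (algebraMap ℝ ℂ)

theorem cj_val750 (x : GL (Fin 2) ℂ) :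
    ((cj750 x : GL (Fin 2) ℂ) : Matrix (Fin 2) (Fin 2) ℂ)
      = (x : Matrix (Fin 2) (Fin 2) ℂ).map (fun z => conj z) := rfl

theorem re_val750 (x : GL (Fin 2) ℝ) :
    ((re750 x : GL (Fin 2) ℂ) : Matrix (Fin 2) (Fin 2) ℂ)
      = (x : Matrix (Fin 2) (Fin 2) ℝ).map (fun r => (r : ℂ)) := rfl

theorem cj_cj750 (x : GL (Fin 2) ℂ) : cj750 (cj750 x) = x := by
  apply Units.ext
  rw [cj_val750, cj_val750]
  ext i j
  simp

theorem cj_re750 (x : GL (Fin 2) ℝ) : cj750 (re750 x) = re750 x := by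
  apply Units.ext
  rw [cj_val750, re_val750]
  ext i j
  simp

theorem continuous_cj750 : Continuous cj750 := by
  have h : Continuous fun M : Matrix (Fin 2) (Fin 2) ℂ =>
      M.map ((starRingAut : ℂ ≃+* ℂ) : ℂ →+* ℂ) :=
    continuous_id.matrix_map Complex.continuous_conj
  exact Continuous.units_map _ h

theorem continuous_re750 : Continuous re750 := by
  have h : Continuous fun M : Matrix (Fin 2) (Fin 2) ℝ => M.map (algebraMap ℝ ℂ) :=
    continuous_id.matrix_map Complex.continuous_ofReal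
  exact Continuous.units_map _ h

theorem re_injective750 : Function.Injective re750 := by
  intro x y h
  apply Units.ext
  have h2 := congrArg (fun g : GL (Fin 2) ℂ => (g : Matrix (Fin 2) (Fin 2) ℂ)) h
  simp only [re_val750] at h2
  ext i j
  have h3 := congrFun (congrFun h2 i) j
  simpa using h3

theorem det_ne_zero750' (h : GL (Fin 2) ℂ) : (h : Matrix (Fin 2) (Fin 2) ℂ).det ≠ 0 :=
  ((Matrix.isUnit_iff_isUnit_det _).mp h.isUnit).ne_zero

/-- An element of `GL₂(ℂ)` fixed by the conjugation is real. -/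
theorem exists_real_of_conj750 (t : GL (Fin 2) ℂ) (h : cj750 t = t) :
    ∃ M : GL (Fin 2) ℝ, re750 M = t := by
  have he : ∀ i j, (((t : Matrix (Fin 2) (Fin 2) ℂ) i j).re : ℂ)
      = (t : Matrix (Fin 2) (Fin 2) ℂ) i j := by
    intro i j
    have h2 := congrArg (fun g : GL (Fin 2) ℂ => (g : Matrix (Fin 2) (Fin 2) ℂ) i j) h
    simp only [cj_val750, Matrix.map_apply] at h2
    exact Complex.conj_eq_iff_re.mp h2
  set M₀ : Matrix (Fin 2) (Fin 2) ℝ := fun i j => ((t : Matrix (Fin 2) (Fin 2) ℂ) i j).re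
    with hM₀
  have hmap : M₀.map (algebraMap ℝ ℂ) = (t : Matrix (Fin 2) (Fin 2) ℂ) := by
    ext i j
    simp only [hM₀]
    exact he i j
  have hdet : M₀.det ≠ 0 := by
    intro h0
    have h1 : (algebraMap ℝ ℂ) M₀.det = (M₀.map (algebraMap ℝ ℂ)).det := by
      rw [RingHom.map_det]
      rfl
    rw [h0, map_zero, hmap] at h1
    exact det_ne_zero750' t h1.symm
  refine ⟨Matrix.GeneralLinearGroup.mkOfDetNeZero M₀ hdet, ?_⟩
  apply Units.ext
  rw [re_val750]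
  exact hmap

/-! ## 3. The twisted compact section -/

theorem disc_re750 (γ₁ : GL (Fin 2) ℝ)
    (hreg : (γ₁ : Matrix (Fin 2) (Fin 2) ℝ).trace ^ 2
      - 4 * (γ₁ : Matrix (Fin 2) (Fin 2) ℝ).det ≠ 0) :
    ((re750 γ₁ : GL (Fin 2) ℂ) : Matrix (Fin 2) (Fin 2) ℂ).trace ^ 2
      - 4 * ((re750 γ₁ : GL (Fin 2) ℂ) : Matrix (Fin 2) (Fin 2) ℂ).det ≠ 0 := by
  have h : ((re750 γ₁ : GL (Fin 2) ℂ) : Matrix (Fin 2) (Fin 2) ℂ).trace ^ 2
      - 4 * ((re750 γ₁ : GL (Fin 2) ℂ) : Matrix (Fin 2) (Fin 2) ℂ).det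
      = (((γ₁ : Matrix (Fin 2) (Fin 2) ℝ).trace ^ 2
        - 4 * (γ₁ : Matrix (Fin 2) (Fin 2) ℝ).det : ℝ) : ℂ) := by
    rw [re_val750]
    simp only [Matrix.trace_fin_two, Matrix.det_fin_two, Matrix.map_apply]
    push_cast
    ring
  rw [h]
  exact_mod_cast hreg

/-- Commuting in the group from commuting with a regular element. -/
theorem comm_of_cent750 (g x y : GL (Fin 2) ℂ)
    (hreg : (g : Matrix (Fin 2) (Fin 2) ℂ).trace ^ 2
      - 4 * (g : Matrix (Fin 2) (Fin 2) ℂ).det ≠ 0)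
    (hx : x * g = g * x) (hy : y * g = g * y) : x * y = y * x := by
  apply Units.ext
  rw [Units.val_mul, Units.val_mul]
  refine comm_of_comm_regular750 _ _ _ hreg ?_ ?_
  · rw [← Units.val_mul, ← Units.val_mul, hx]
  · rw [← Units.val_mul, ← Units.val_mul, hy]

/-- **THE TWISTED COMPACT SECTION.** -/
theorem exists_compact_section_tw750 (γ₁ : GL (Fin 2) ℝ)
    (hreg : (γ₁ : Matrix (Fin 2) (Fin 2) ℝ).trace ^ 2
      - 4 * (γ₁ : Matrix (Fin 2) (Fin 2) ℝ).det ≠ 0)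
    (δ : GL (Fin 2) ℂ) (hN : δ * cj750 δ = re750 γ₁)
    (C : Set (GL (Fin 2) ℂ)) (hC : IsCompact C) :
    ∃ Ω₀ : Set (GL (Fin 2) ℂ), IsCompact Ω₀ ∧
      ∀ x : GL (Fin 2) ℂ, x⁻¹ * δ * cj750 x ∈ C →
        ∃ (t : GL (Fin 2) ℝ) (ω : GL (Fin 2) ℂ),
          t⁻¹ * γ₁ * t = γ₁ ∧ ω ∈ Ω₀ ∧ x = re750 t * ω := by
  classical
  set γ' : GL (Fin 2) ℂ := re750 γ₁ with hγ'
  have hreg' := disc_re750 γ₁ hreg
  have hcjγ : cj750 γ' = γ' := cj_re750 γ₁
  -- `δ` commutes with `γ'`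
  have hδ' : cj750 δ * δ = γ' := by
    have h1 := congrArg cj750 hN
    rw [map_mul, cj_cj750, hcjγ] at h1
    exact h1
  have hδγ : δ * γ' = γ' * δ := by
    calc δ * γ' = δ * (cj750 δ * δ) := by rw [hδ']
      _ = (δ * cj750 δ) * δ := by rw [mul_assoc]
      _ = γ' * δ := by rw [hN]
  -- the untwisted section for the norms
  have hC₁ : IsCompact ((fun c : GL (Fin 2) ℂ => c * cj750 c) '' C) :=
    hC.image (continuous_id.mul continuous_cj750)
  obtain ⟨Ω₁, hΩ₁, hsec⟩ := exists_compact_section750 γ' hreg' _ hC₁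
  -- the compact set of the `u = t⁻¹ t̄`
  have hC₃ : IsCompact ((fun p : GL (Fin 2) ℂ × GL (Fin 2) ℂ × GL (Fin 2) ℂ =>
      p.1 * p.2.1 * (cj750 p.2.2)⁻¹ * δ⁻¹) '' (Ω₁ ×ˢ (C ×ˢ Ω₁))) := by
    refine (hΩ₁.prod (hC.prod hΩ₁)).image ?_
    exact ((continuous_fst.mul (continuous_fst.comp continuous_snd)).mul
      ((continuous_cj750.comp (continuous_snd.comp continuous_snd)).inv)).mul continuous_const
  set C₃ : Set (GL (Fin 2) ℂ) := (fun p : GL (Fin 2) ℂ × GL (Fin 2) ℂ × GL (Fin 2) ℂ =>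
      p.1 * p.2.1 * (cj750 p.2.2)⁻¹ * δ⁻¹) '' (Ω₁ ×ˢ (C ×ˢ Ω₁)) with hC₃def
  -- the open cover
  have hv : Continuous fun u : GL (Fin 2) ℂ => (u : Matrix (Fin 2) (Fin 2) ℂ) :=
    Units.continuous_val
  have hmat : ∀ j : Fin 3, Continuous fun u : GL (Fin 2) ℂ =>
      av750 j • (1 : Matrix (Fin 2) (Fin 2) ℂ)
        + conj (av750 j) • (u : Matrix (Fin 2) (Fin 2) ℂ) := fun j =>
    continuous_const.add (hv.const_smul (conj (av750 j)))
  set U : Fin 3 → Set (GL (Fin 2) ℂ) := fun j =>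
    {u | (av750 j • (1 : Matrix (Fin 2) (Fin 2) ℂ)
      + conj (av750 j) • (u : Matrix (Fin 2) (Fin 2) ℂ)).det ≠ 0} with hUdef
  have hUo : ∀ j, IsOpen (U j) := fun j =>
    isOpen_ne_fun (hmat j).matrix_det continuous_const
  have hcov : C₃ ⊆ ⋃ j ∈ (Finset.univ : Finset (Fin 3)), U j := by
    intro u _
    obtain ⟨j, hj⟩ := exists_det_three750 (u : Matrix (Fin 2) (Fin 2) ℂ)
    exact Set.mem_biUnion (Finset.mem_univ j) hj
  obtain ⟨K, hKc, hKU, hKeq⟩ :=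
    hC₃.finite_compact_cover Finset.univ U (fun j _ => hUo j) hcov
  let V : ∀ j : Fin 3, K j → GL (Fin 2) ℂ := fun j u =>
    Matrix.GeneralLinearGroup.mkOfDetNeZero
      (av750 j • (1 : Matrix (Fin 2) (Fin 2) ℂ)
        + conj (av750 j) • ((u : GL (Fin 2) ℂ) : Matrix (Fin 2) (Fin 2) ℂ)) (hKU j u.2)
  have hV : ∀ j, Continuous (V j) := by
    intro j
    rw [Units.continuous_iff]
    have hr : Continuous fun u : K j =>
        av750 j • (1 : Matrix (Fin 2) (Fin 2) ℂ)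
          + conj (av750 j) • ((u : GL (Fin 2) ℂ) : Matrix (Fin 2) (Fin 2) ℂ) :=
      (hmat j).comp continuous_subtype_val
    refine ⟨hr, ?_⟩
    have hinv : (fun u : K j => ((V j u)⁻¹ : GL (Fin 2) ℂ).val)
        = fun u : K j =>
          ((av750 j • (1 : Matrix (Fin 2) (Fin 2) ℂ)
            + conj (av750 j) • ((u : GL (Fin 2) ℂ) : Matrix (Fin 2) (Fin 2) ℂ)).det)⁻¹ •
            (av750 j • (1 : Matrix (Fin 2) (Fin 2) ℂ)
              + conj (av750 j) •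
                ((u : GL (Fin 2) ℂ) : Matrix (Fin 2) (Fin 2) ℂ)).adjugate := by
      funext u
      rw [Matrix.coe_units_inv]
      change (av750 j • (1 : Matrix (Fin 2) (Fin 2) ℂ)
        + conj (av750 j) • ((u : GL (Fin 2) ℂ) : Matrix (Fin 2) (Fin 2) ℂ))⁻¹ = _
      rw [Matrix.inv_def, Ring.inverse_eq_inv']
    rw [hinv]
    exact (hr.matrix_det.inv₀ fun u => hKU j u.2).smul hr.matrix_adjugate
  have hΩ₂ : IsCompact (⋃ j, Set.range fun u : K j => (V j u)⁻¹) := by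
    refine isCompact_iUnion fun j => ?_
    haveI : CompactSpace (K j) := isCompact_iff_compactSpace.mp (hKc j)
    exact isCompact_range (hV j).inv
  refine ⟨(⋃ j, Set.range fun u : K j => (V j u)⁻¹) * Ω₁, hΩ₂.mul hΩ₁, ?_⟩
  intro x hx
  -- the norm of `c = x⁻¹ δ x̄`
  have hnorm : (x⁻¹ * δ * cj750 x) * cj750 (x⁻¹ * δ * cj750 x) = x⁻¹ * γ' * x := by
    rw [map_mul, map_mul, map_inv, cj_cj750]
    calc x⁻¹ * δ * cj750 x * ((cj750 x)⁻¹ * cj750 δ * x)
        = x⁻¹ * (δ * cj750 δ) * x := by group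
      _ = x⁻¹ * γ' * x := by rw [hN]
  have hmem : x⁻¹ * γ' * x ∈ (fun c : GL (Fin 2) ℂ => c * cj750 c) '' C :=
    ⟨x⁻¹ * δ * cj750 x, hx, hnorm⟩
  obtain ⟨t, ω₁, ht, hω₁, rfl⟩ := hsec x hmem
  -- commutation
  have htγ : t * γ' = γ' * t := by
    calc t * γ' = t * (t⁻¹ * γ' * t) := by rw [ht]
      _ = γ' * t := by group
  have hctγ : cj750 t * γ' = γ' * cj750 t := by
    have h1 := congrArg cj750 htγ
    rw [map_mul, map_mul, hcjγ] at h1
    exact h1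
  have hcomm : cj750 t * δ = δ * cj750 t := comm_of_cent750 γ' _ _ hreg' hctγ hδγ
  have hcomm2 : t * cj750 t = cj750 t * t := comm_of_cent750 γ' _ _ hreg' htγ hctγ
  -- `u = t⁻¹ t̄` is in `C₃`
  set u : GL (Fin 2) ℂ := t⁻¹ * cj750 t with hu
  have huC : u ∈ C₃ := by
    refine ⟨(ω₁, (t * ω₁)⁻¹ * δ * cj750 (t * ω₁), ω₁), ⟨hω₁, hx, hω₁⟩, ?_⟩
    simp only [map_mul]
    calc ω₁ * ((t * ω₁)⁻¹ * δ * (cj750 t * cj750 ω₁)) * (cj750 ω₁)⁻¹ * δ⁻¹
        = t⁻¹ * (δ * cj750 t) * δ⁻¹ := by group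
      _ = t⁻¹ * (cj750 t * δ) * δ⁻¹ := by rw [hcomm]
      _ = u := by rw [hu]; group
  rw [hKeq] at huC
  obtain ⟨j, -, hj⟩ := Set.mem_iUnion₂.mp huC
  set W : GL (Fin 2) ℂ := V j ⟨u, hj⟩ with hW
  have hWval : (W : Matrix (Fin 2) (Fin 2) ℂ)
      = av750 j • (1 : Matrix (Fin 2) (Fin 2) ℂ)
        + conj (av750 j) • (u : Matrix (Fin 2) (Fin 2) ℂ) := rfl
  -- `t' = t W = a t + ā t̄`
  have htW : ((t * W : GL (Fin 2) ℂ) : Matrix (Fin 2) (Fin 2) ℂ)
      = av750 j • (t : Matrix (Fin 2) (Fin 2) ℂ)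
        + conj (av750 j) • ((cj750 t : GL (Fin 2) ℂ) : Matrix (Fin 2) (Fin 2) ℂ) := by
    have h1 : (t : Matrix (Fin 2) (Fin 2) ℂ) * (u : Matrix (Fin 2) (Fin 2) ℂ)
        = ((cj750 t : GL (Fin 2) ℂ) : Matrix (Fin 2) (Fin 2) ℂ) := by
      rw [← Units.val_mul, hu, mul_inv_cancel_left]
    rw [Units.val_mul, hWval, mul_add, Matrix.mul_smul, Matrix.mul_smul, Matrix.mul_one, h1]
  have hfix : cj750 (t * W) = t * W := by
    apply Units.ext
    rw [cj_val750, htW, cj_val750]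
    ext a b
    simp only [Matrix.map_apply, Matrix.add_apply, Matrix.smul_apply, smul_eq_mul, map_add,
      map_mul, Complex.conj_conj]
    ring
  obtain ⟨M, hM⟩ := exists_real_of_conj750 (t * W) hfix
  -- `M` is in the centraliser of `γ₁`
  have htWγ : (t * W) * γ' = γ' * (t * W) := by
    apply Units.ext
    have e1 : ((t * W * γ' : GL (Fin 2) ℂ) : Matrix (Fin 2) (Fin 2) ℂ)
        = ((t * W : GL (Fin 2) ℂ) : Matrix (Fin 2) (Fin 2) ℂ)
          * (γ' : Matrix (Fin 2) (Fin 2) ℂ) := Units.val_mul _ _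
    have e2 : ((γ' * (t * W) : GL (Fin 2) ℂ) : Matrix (Fin 2) (Fin 2) ℂ)
        = (γ' : Matrix (Fin 2) (Fin 2) ℂ)
          * ((t * W : GL (Fin 2) ℂ) : Matrix (Fin 2) (Fin 2) ℂ) := Units.val_mul _ _
    have m1 : (t : Matrix (Fin 2) (Fin 2) ℂ) * (γ' : Matrix (Fin 2) (Fin 2) ℂ)
        = (γ' : Matrix (Fin 2) (Fin 2) ℂ) * (t : Matrix (Fin 2) (Fin 2) ℂ) := by
      rw [← Units.val_mul, ← Units.val_mul, htγ]
    have m2 : ((cj750 t : GL (Fin 2) ℂ) : Matrix (Fin 2) (Fin 2) ℂ)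
          * (γ' : Matrix (Fin 2) (Fin 2) ℂ)
        = (γ' : Matrix (Fin 2) (Fin 2) ℂ)
          * ((cj750 t : GL (Fin 2) ℂ) : Matrix (Fin 2) (Fin 2) ℂ) := by
      rw [← Units.val_mul, ← Units.val_mul, hctγ]
    rw [e1, e2, htW, add_mul, mul_add, Matrix.smul_mul, Matrix.mul_smul, Matrix.smul_mul,
      Matrix.mul_smul, m1, m2]
  have hMc : M⁻¹ * γ₁ * M = γ₁ := by
    apply re_injective750
    rw [map_mul, map_mul, map_inv, hM, ← hγ']
    calc (t * W)⁻¹ * γ' * (t * W) = (t * W)⁻¹ * (γ' * (t * W)) := by rw [mul_assoc]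
      _ = (t * W)⁻¹ * ((t * W) * γ') := by rw [htWγ]
      _ = γ' := by group
  refine ⟨M, W⁻¹ * ω₁, hMc, ?_, ?_⟩
  · exact Set.mul_mem_mul (Set.mem_iUnion.mpr ⟨j, ⟨⟨u, hj⟩, rfl⟩⟩) hω₁
  · rw [hM]
    group

/-! ## 4. Integrability of the twisted cut-off orbital integrand -/

theorem locallyCompactSpace_GL2C750' : LocallyCompactSpace (GL (Fin 2) ℂ) := by
  have : LocallyCompactSpace (Matrix (Fin 2) (Fin 2) ℂ) :=
    inferInstanceAs (LocallyCompactSpace (Fin 2 → Fin 2 → ℂ))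
  have : T2Space (Matrix (Fin 2) (Fin 2) ℂ) := inferInstanceAs (T2Space (Fin 2 → Fin 2 → ℂ))
  infer_instance

theorem secondCountableTopology_GL2C750' : SecondCountableTopology (GL (Fin 2) ℂ) := by
  have : SecondCountableTopology (Matrix (Fin 2) (Fin 2) ℂ) :=
    inferInstanceAs (SecondCountableTopology (Fin 2 → Fin 2 → ℂ))
  have : SecondCountableTopology (Matrix (Fin 2) (Fin 2) ℂ)ᵐᵒᵖ :=
    (MulOpposite.opHomeomorph
      (M := Matrix (Fin 2) (Fin 2) ℂ)).symm.isEmbedding.secondCountableTopology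
  exact Units.isEmbedding_embedProduct.secondCountableTopology

theorem locallyCompactSpace_GL2R750 : LocallyCompactSpace (GL (Fin 2) ℝ) := by
  have : LocallyCompactSpace (Matrix (Fin 2) (Fin 2) ℝ) :=
    inferInstanceAs (LocallyCompactSpace (Fin 2 → Fin 2 → ℝ))
  have : T2Space (Matrix (Fin 2) (Fin 2) ℝ) := inferInstanceAs (T2Space (Fin 2 → Fin 2 → ℝ))
  infer_instance

theorem secondCountableTopology_GL2R750 : SecondCountableTopology (GL (Fin 2) ℝ) := by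
  have : SecondCountableTopology (Matrix (Fin 2) (Fin 2) ℝ) :=
    inferInstanceAs (SecondCountableTopology (Fin 2 → Fin 2 → ℝ))
  have : SecondCountableTopology (Matrix (Fin 2) (Fin 2) ℝ)ᵐᵒᵖ :=
    (MulOpposite.opHomeomorph
      (M := Matrix (Fin 2) (Fin 2) ℝ)).symm.isEmbedding.secondCountableTopology
  exact Units.isEmbedding_embedProduct.secondCountableTopology

/-- **INTEGRABILITY OF THE TWISTED CUT-OFF ORBITAL INTEGRAND.**  `γ₁ ∈ GL₂(ℝ)` regular, `T` its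
centraliser in `GL₂(ℝ)` with a Haar measure `μT`, `δ ∈ GL₂(ℂ)` with `δ δ̄ = γ₁`, `β'` a continuous
cut-off function on `GL₂(ℂ)` (`∫_T β'(t x) dμT(t) = 1`), `Φ` continuous of compact support: then
`x ↦ Φ(x⁻¹ δ x̄) β'(x)` is integrable for every Haar measure of `GL₂(ℂ)`. -/
theorem integrable_tw_orbit_cut750
    [MeasurableSpace (GL (Fin 2) ℂ)] [BorelSpace (GL (Fin 2) ℂ)]
    (γ₁ : GL (Fin 2) ℝ)
    (hreg : (γ₁ : Matrix (Fin 2) (Fin 2) ℝ).trace ^ 2
      - 4 * (γ₁ : Matrix (Fin 2) (Fin 2) ℝ).det ≠ 0)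
    (T : Subgroup (GL (Fin 2) ℝ)) (hT : ∀ x : GL (Fin 2) ℝ, x ∈ T ↔ x⁻¹ * γ₁ * x = γ₁)
    [MeasurableSpace T] [BorelSpace T]
    (μ : Measure (GL (Fin 2) ℂ)) [IsHaarMeasure μ] (μT : Measure T) [IsHaarMeasure μT]
    (δ : GL (Fin 2) ℂ) (hN : δ * cj750 δ = re750 γ₁)
    (β' : GL (Fin 2) ℂ → ℝ) (hβc : Continuous β') (hβ0 : ∀ x, 0 ≤ β' x)
    (hβ1 : ∀ x : GL (Fin 2) ℂ, ∫ t : T, β' (re750 (t : GL (Fin 2) ℝ) * x) ∂μT = 1)
    (Φ : GL (Fin 2) ℂ → ℂ) (hΦ : Continuous Φ) (hΦc : HasCompactSupport Φ) :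
    Integrable (fun x : GL (Fin 2) ℂ => Φ (x⁻¹ * δ * cj750 x) * ((β' x : ℝ) : ℂ)) μ := by
  haveI := locallyCompactSpace_GL2C750'
  haveI := secondCountableTopology_GL2C750'
  haveI := locallyCompactSpace_GL2R750
  haveI := secondCountableTopology_GL2R750
  have hTcl : IsClosed (T : Set (GL (Fin 2) ℝ)) := by
    have h : (T : Set (GL (Fin 2) ℝ)) = {x | x⁻¹ * γ₁ * x = γ₁} := by
      ext x; exact hT x
    rw [h]
    exact isClosed_eq ((continuous_inv.mul continuous_const).mul continuous_id) continuous_const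
  haveI : SigmaCompactSpace T := (hTcl.isClosedEmbedding_subtypeVal).sigmaCompactSpace
  haveI : SecondCountableTopology T := TopologicalSpace.Subtype.secondCountableTopology _
  obtain ⟨Ω₀, hΩ, hsec⟩ := exists_compact_section_tw750 γ₁ hreg δ hN _ hΦc.isCompact
  obtain ⟨M, hM⟩ := hΦ.bounded_above_of_compact_support hΦc
  have hΦcont : Continuous fun x : GL (Fin 2) ℂ => Φ (x⁻¹ * δ * cj750 x) :=
    hΦ.comp ((continuous_inv.mul continuous_const).mul continuous_cj750)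
  refine integrable_mul_cut_of_section_hom750 (re750.comp T.subtype)
    (continuous_re750.comp continuous_subtype_val) μ μT β' hβc hβ0 hβ1 Ω₀ hΩ
    (fun x => Φ (x⁻¹ * δ * cj750 x)) hΦcont.aestronglyMeasurable M (fun x => hM _) ?_
  intro x hx
  obtain ⟨t, ω, ht, hω, rfl⟩ := hsec x (subset_tsupport Φ hx)
  exact ⟨⟨t, (hT t).mpr ht⟩, ω, hω, rfl⟩

end Fermat.Agent.LT.T7.H750
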