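import Mathlib
import Fermat.Agent.LT.T6.Spec
import Fermat.Agent.LT.T7.H750.TwSection

/-!
# Row LT, tower T7, F/Q mirror (station `UpFactQ`, the infinite place), ASSET (helper750),
# OFF-MAIN: INTEGRABILITY of the TWISTED cut-off orbital integrand on `GL₂(ℂ)`, in the vocabulary
# of `T6/Spec.lean` / `T6/SpecArch.lean` (`T6.IsArchMatch`) and of `IsArchValQ514` (helper514)

`γ ∈ GL₂(ℝ)` regular, `μT` a Haar measure of its centraliser
`T6.twCentSub (MonoidHom.id _) γ` (= `cent305 γ`), `β'` a continuous cut-off function on `GL₂(ℂ)`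
normalised against `μT` (the cut-off data of `T6.IsArchMatch`), `Φ` continuous of compact
support on `GL₂(ℂ)`, `μc` a Haar measure of `GL₂(ℂ)`.

* `twArchIntegrable750`: if `N δ = δ δ̄ = γ` (`T6.twNorm starRingAut 2 δ`), then
  `x ↦ Φ(x⁻¹ δ x̄) β'(x)` is `μc`-integrable.
* `twArchIntegrable_central750`: the same if `N δ = γ z`, `z` central in `GL₂(ℝ)` and `γ z` regular
  (the form needed for the terms `j` of the ray: `N (δ r'^j)_w = (γ r^j)_∞`).
* `isReg_mul_scalar750`: `γ z` is regular if `γ` is regular and `z = c • 1`.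

This is the integrability needed to exchange the sum over the ray with the integral at the
infinite place in the factorisation upstairs over `ℚ` (the twisted orbit is closed:
`TwSection.lean`, Mathlib only).
-/

set_option autoImplicit false
set_option linter.unusedSectionVars false
set_option linter.style.haveILetI false

open MeasureTheory

noncomputable section

namespace Fermat.Agent.LT.T7.H750

open Fermat.Agent.LT

theorem glAut_star750 (x : GL (Fin 2) ℂ) : T6.glAut (starRingAut : ℂ ≃+* ℂ) x = cj750 x := rfl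

theorem twNorm_two750 (δ : GL (Fin 2) ℂ) :
    T6.twNorm (starRingAut : ℂ ≃+* ℂ) 2 δ = δ * cj750 δ := by
  change δ * T6.glAut (starRingAut : ℂ ≃+* ℂ) (δ * T6.glAut (starRingAut : ℂ ≃+* ℂ) 1) = _
  rw [map_one, mul_one]
  rfl

/-- `γ z` is regular if `γ` is regular and `z` is a scalar matrix. -/
theorem isReg_mul_scalar750 (γ z : GL (Fin 2) ℝ) (hγ : T6.IsReg γ) (c : ℝ)
    (hz : (z : Matrix (Fin 2) (Fin 2) ℝ) = c • 1) : T6.IsReg (γ * z) := by
  have hc : c ≠ 0 := by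
    intro h0
    have h1 : (z : Matrix (Fin 2) (Fin 2) ℝ).det ≠ 0 :=
      ((Matrix.isUnit_iff_isUnit_det _).mp z.isUnit).ne_zero
    rw [hz, h0, zero_smul, Matrix.det_zero] at h1
    exact h1 rfl
  have h2 : (γ : Matrix (Fin 2) (Fin 2) ℝ).trace ^ 2
      - 4 * (γ : Matrix (Fin 2) (Fin 2) ℝ).det ≠ 0 := hγ.ne_zero
  have h3 : ((γ * z : GL (Fin 2) ℝ) : Matrix (Fin 2) (Fin 2) ℝ).trace ^ 2
      - 4 * ((γ * z : GL (Fin 2) ℝ) : Matrix (Fin 2) (Fin 2) ℝ).det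
      = c ^ 2 * ((γ : Matrix (Fin 2) (Fin 2) ℝ).trace ^ 2
        - 4 * (γ : Matrix (Fin 2) (Fin 2) ℝ).det) := by
    rw [Units.val_mul, hz, Matrix.mul_smul, Matrix.mul_one]
    simp only [Matrix.trace_fin_two, Matrix.det_fin_two, Matrix.smul_apply, smul_eq_mul]
    ring
  change IsUnit (((γ * z : GL (Fin 2) ℝ) : Matrix (Fin 2) (Fin 2) ℝ).trace ^ 2
      - 4 * ((γ * z : GL (Fin 2) ℝ) : Matrix (Fin 2) (Fin 2) ℝ).det)
  rw [h3]
  exact (mul_ne_zero (pow_ne_zero 2 hc) h2).isUnit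

/-- **TW-ARCH-INTEGRABLE, central form.** -/
theorem twArchIntegrable_central750 (γ z : GL (Fin 2) ℝ)
    (hz : ∀ x : GL (Fin 2) ℝ, x * z = z * x) (hreg : T6.IsReg (γ * z))
    (μc : @Measure (GL (Fin 2) ℂ) (borel _)) (hμc : @Measure.IsHaarMeasure _ _ _ (borel _) μc)
    (μT : @Measure (T6.twCentSub (MonoidHom.id (GL (Fin 2) ℝ)) γ) (borel _))
    (hμT : @Measure.IsHaarMeasure _ _ _ (borel _) μT)
    (δ : GL (Fin 2) ℂ)
    (hN : T6.twNorm (starRingAut : ℂ ≃+* ℂ) 2 δ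
      = Matrix.GeneralLinearGroup.map (algebraMap ℝ ℂ) (γ * z))
    (β' : GL (Fin 2) ℂ → ℝ) (hβc : Continuous β') (hβ0 : ∀ x, 0 ≤ β' x)
    (hβ1 : ∀ x : GL (Fin 2) ℂ,
      @integral _ _ _ _ (borel _) μT
        (fun t : T6.twCentSub (MonoidHom.id (GL (Fin 2) ℝ)) γ =>
          β' (Matrix.GeneralLinearGroup.map (algebraMap ℝ ℂ) (t : GL (Fin 2) ℝ) * x)) = 1)
    (Φ : GL (Fin 2) ℂ → ℂ) (hΦ : Continuous Φ) (hΦc : HasCompactSupport Φ) :
    @Integrable _ _ _ _ (borel _)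
      (fun x : GL (Fin 2) ℂ =>
        Φ (x⁻¹ * δ * T6.glAut (starRingAut : ℂ ≃+* ℂ) x) * ((β' x : ℝ) : ℂ)) μc := by
  letI : MeasurableSpace (GL (Fin 2) ℂ) := borel _
  haveI : BorelSpace (GL (Fin 2) ℂ) := ⟨rfl⟩
  letI : MeasurableSpace (T6.twCentSub (MonoidHom.id (GL (Fin 2) ℝ)) γ) := borel _
  haveI : BorelSpace (T6.twCentSub (MonoidHom.id (GL (Fin 2) ℝ)) γ) := ⟨rfl⟩
  haveI := hμc
  haveI := hμT
  have hreg' : ((γ * z : GL (Fin 2) ℝ) : Matrix (Fin 2) (Fin 2) ℝ).trace ^ 2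
      - 4 * ((γ * z : GL (Fin 2) ℝ) : Matrix (Fin 2) (Fin 2) ℝ).det ≠ 0 := hreg.ne_zero
  have hT : ∀ x : GL (Fin 2) ℝ,
      x ∈ T6.twCentSub (MonoidHom.id (GL (Fin 2) ℝ)) γ ↔ x⁻¹ * (γ * z) * x = γ * z := by
    intro x
    have h1 : x⁻¹ * (γ * z) * x = (x⁻¹ * γ * x) * z := by
      rw [mul_assoc (x⁻¹ * γ) x z, hz x]
      simp only [mul_assoc]
    rw [h1]
    constructor
    · intro hx
      have hx' : x⁻¹ * γ * x = γ := hx
      rw [hx']
    · intro hx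
      exact mul_right_cancel hx
  have hN' : δ * cj750 δ = re750 (γ * z) := by
    rw [← twNorm_two750, hN]
    rfl
  exact integrable_tw_orbit_cut750 (γ * z) hreg'
    (T6.twCentSub (MonoidHom.id (GL (Fin 2) ℝ)) γ) hT μc μT δ hN' β' hβc hβ0 hβ1 Φ hΦ hΦc

/-- **TW-ARCH-INTEGRABLE** (the data of `T6.IsArchMatch`). -/
theorem twArchIntegrable750 (γ : GL (Fin 2) ℝ) (hγ : T6.IsReg γ)
    (μc : @Measure (GL (Fin 2) ℂ) (borel _)) (hμc : @Measure.IsHaarMeasure _ _ _ (borel _) μc)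
    (μT : @Measure (T6.twCentSub (MonoidHom.id (GL (Fin 2) ℝ)) γ) (borel _))
    (hμT : @Measure.IsHaarMeasure _ _ _ (borel _) μT)
    (δ : GL (Fin 2) ℂ)
    (hN : T6.twNorm (starRingAut : ℂ ≃+* ℂ) 2 δ
      = Matrix.GeneralLinearGroup.map (algebraMap ℝ ℂ) γ)
    (β' : GL (Fin 2) ℂ → ℝ) (hβc : Continuous β') (hβ0 : ∀ x, 0 ≤ β' x)
    (hβ1 : ∀ x : GL (Fin 2) ℂ,
      @integral _ _ _ _ (borel _) μT
        (fun t : T6.twCentSub (MonoidHom.id (GL (Fin 2) ℝ)) γ =>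
          β' (Matrix.GeneralLinearGroup.map (algebraMap ℝ ℂ) (t : GL (Fin 2) ℝ) * x)) = 1)
    (Φ : GL (Fin 2) ℂ → ℂ) (hΦ : Continuous Φ) (hΦc : HasCompactSupport Φ) :
    @Integrable _ _ _ _ (borel _)
      (fun x : GL (Fin 2) ℂ =>
        Φ (x⁻¹ * δ * T6.glAut (starRingAut : ℂ ≃+* ℂ) x) * ((β' x : ℝ) : ℂ)) μc := by
  refine twArchIntegrable_central750 γ 1 (fun x => by rw [mul_one, one_mul])
    (by rw [mul_one]; exact hγ) μc hμc μT hμT δ (by rw [mul_one]; exact hN) β' hβc hβ0 hβ1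
    Φ hΦ hΦc

end Fermat.Agent.LT.T7.H750
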