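import Mathlib
import Fermat.Agent.LT.T7.H1U.FactIntUpQSpec
import Fermat.Agent.LT.T7.H750.TwArchInt

/-!
# Row LT, tower T7, F/Q mirror, node U.3 `H1U.FactIntUpQC` (registry row 2787, helper1),
# LEAF B.3 `H1U.ArchIntblUpQC` (helper750), OFF-MAIN

`archIntblUpQC750 F : H1U.ArchIntblUpQC F` VERBATIM vs `T7/H1U/FactIntUpQSpec.lean` (helper1),
UNCONDITIONAL (the hypothesis `T6.T6Out` of the leaf is not used).

Proof.  `F` has ONE infinite place `w`, complex, and `σ ≠ 1` (`l = 2`), so `w ∘ σ = conj ∘ w`.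
The component at `w` of the ray generator upstairs is the positive real scalar `t'`,
`t'^4 = 2`; the real component of the ray generator downstairs is the positive scalar `t`,
`t^2 = 2`; hence `t'^2 = t`.  For `δ₀ = (δ r'^j)_w = δ_w t'^j`:

    N δ₀ = δ₀ conj(δ₀) = (δ σ(δ))_w t'^{2j} = (γ_∞)_ℂ t^j = (γ_∞ t^j)_ℂ,

`γ_∞ t^j ∈ GL₂(ℝ)` regular, `t^j` central.  The cut-off function `β'` is normalised against the
Haar measure `L.μtr` of the centraliser of `γ_∞` (`IsArchAtQ`).  So
`twArchIntegrable_central750` (`TwArchInt.lean`: the twisted orbit of `δ₀` is closed in the form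
of a compact section modulo the real centraliser, Tonelli) applies.
-/

set_option autoImplicit false

open AutomorphicForm IsDedekindDomain NumberField MeasureTheory
open scoped ComplexConjugate

noncomputable section

namespace Fermat.Agent.LT.T7.H750

open Fermat.Agent.LT Fermat.Agent.LT.H556 Fermat.Agent.LT.H556.A0 Fermat.Agent.LT.T7
open Fermat.Agent.LT.T7.H305 Fermat.Agent.LT.T7.MQ298 Fermat.Agent.LT.T7.H340
open Fermat.Agent.LT.T7.FUQ514
open Matrix.GeneralLinearGroup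

/-- The image of a scalar matrix under a ring homomorphism. -/
theorem map_scalarU750 {A B : Type} [CommRing A] [CommRing B] (f : A →+* B) (u : Aˣ) :
    Matrix.GeneralLinearGroup.map f (scalar (Fin 2) u) = scalar (Fin 2) (Units.map f u) := by
  apply Matrix.GeneralLinearGroup.ext
  intro i j
  rw [Matrix.GeneralLinearGroup.map_apply, coe_scalar, coe_scalar]
  by_cases hij : i = j
  · subst hij
    simp only [Matrix.scalar_apply, Matrix.diagonal_apply_eq, Units.coe_map, MonoidHom.coe_coe]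
  · simp only [Matrix.scalar_apply, Matrix.diagonal_apply_ne _ hij, map_zero]

/-- Composition of the maps induced on `GL₂`. -/
theorem map_mapU750 {A B C : Type} [CommRing A] [CommRing B] [CommRing C] (f : A →+* B)
    (g : B →+* C) (x : GL (Fin 2) A) :
    Matrix.GeneralLinearGroup.map g (Matrix.GeneralLinearGroup.map f x)
      = Matrix.GeneralLinearGroup.map (g.comp f) x := by
  apply Matrix.GeneralLinearGroup.ext
  intro i j
  rfl

/-- The discriminant commutes with ring homomorphisms. -/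
theorem disc_mapU750 {A B : Type} [CommRing A] [CommRing B] (f : A →+* B) (γ : GL (Fin 2) A) :
    T6.disc (Matrix.GeneralLinearGroup.map f γ) = f (T6.disc γ) := by
  show ((Matrix.GeneralLinearGroup.map f γ : GL (Fin 2) B) : Matrix (Fin 2) (Fin 2) B).trace ^ 2
      - 4 * ((Matrix.GeneralLinearGroup.map f γ : GL (Fin 2) B) : Matrix (Fin 2) (Fin 2) B).det
    = f ((γ : Matrix (Fin 2) (Fin 2) A).trace ^ 2 - 4 * (γ : Matrix (Fin 2) (Fin 2) A).det)
  have he : ∀ i j : Fin 2,
      ((Matrix.GeneralLinearGroup.map f γ : GL (Fin 2) B) : Matrix (Fin 2) (Fin 2) B) i j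
        = f ((γ : Matrix (Fin 2) (Fin 2) A) i j) := fun i j => rfl
  rw [Matrix.trace_fin_two, Matrix.det_fin_two, Matrix.trace_fin_two, Matrix.det_fin_two]
  simp only [he, map_sub, map_mul, map_add, map_pow, map_ofNat]

theorem isReg_mapU750 {A B : Type} [CommRing A] [CommRing B] (f : A →+* B) (γ : GL (Fin 2) A)
    (h : T6.IsReg γ) : T6.IsReg (Matrix.GeneralLinearGroup.map f γ) := by
  show IsUnit (T6.disc (Matrix.GeneralLinearGroup.map f γ))
  rw [disc_mapU750]
  exact IsUnit.map f h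

/-- Regularity is stable under multiplication by a scalar. -/
theorem isReg_mul_scalarU750 (γ : GL (Fin 2) ℝ) (u : ℝˣ) (h : T6.IsReg γ) :
    T6.IsReg (γ * scalar (Fin 2) u) := by
  have hm : ((γ * scalar (Fin 2) u : GL (Fin 2) ℝ) : Matrix (Fin 2) (Fin 2) ℝ)
      = (u : ℝ) • (γ : Matrix (Fin 2) (Fin 2) ℝ) := by
    rw [Units.val_mul, coe_scalar, Matrix.scalar_apply, ← Matrix.smul_eq_mul_diagonal]
  have hd : T6.disc (γ * scalar (Fin 2) u) = (u : ℝ) ^ 2 * T6.disc γ := by
    show ((γ * scalar (Fin 2) u : GL (Fin 2) ℝ) : Matrix (Fin 2) (Fin 2) ℝ).trace ^ 2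
        - 4 * ((γ * scalar (Fin 2) u : GL (Fin 2) ℝ) : Matrix (Fin 2) (Fin 2) ℝ).det
      = (u : ℝ) ^ 2 * ((γ : Matrix (Fin 2) (Fin 2) ℝ).trace ^ 2
        - 4 * (γ : Matrix (Fin 2) (Fin 2) ℝ).det)
    rw [hm, Matrix.trace_smul, Matrix.det_smul]
    simp only [Fintype.card_fin, smul_eq_mul]
    ring
  show IsUnit (T6.disc (γ * scalar (Fin 2) u))
  rw [hd]
  exact (u.isUnit.pow 2).mul h

/-- The twisted norm of degree two. -/
theorem twNorm_twoU750 (s : ℂ ≃+* ℂ) (δ : GL (Fin 2) ℂ) :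
    T6.twNorm s 2 δ = δ * T6.glAut s (δ * T6.glAut s 1) := rfl

/-- The real component of the ray generator of `ℚ` is the positive scalar `t`, `t ^ 2 = 2`. -/
theorem ray_scalarQU750 (R : Frame5 ℚ) (hR : IsFrame5 R) :
    ∃ u : ℝˣ, 0 < (u : ℝ) ∧ (u : ℝ) ^ 2 = 2 ∧ reGLQ298 R.r = scalar (Fin 2) u := by
  obtain ⟨_, t, ht0, ht2, hinf⟩ := hR.ray
  refine ⟨Units.mk0 t ht0.ne', ht0, ?_, ?_⟩
  · have : Module.finrank ℚ ℚ = 1 := Module.finrank_self ℚ
    rw [this] at ht2
    simpa using ht2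
  apply Matrix.GeneralLinearGroup.ext
  intro i j
  have h1 : ((reGLQ298 R.r : GL (Fin 2) ℝ) i j : ℝ)
      = InfinitePlace.Completion.extensionEmbeddingOfIsReal Rat.isReal_infinitePlace
          (((R.r : Matrix (Fin 2) (Fin 2) (Adl ℚ)) i j).1 Rat.infinitePlace) := rfl
  have h2 := congrFun (congrFun (hinf Rat.infinitePlace) i) j
  have h3 : infComp Rat.infinitePlace R.r i j
      = InfinitePlace.Completion.extensionEmbedding Rat.infinitePlace
          (((R.r : Matrix (Fin 2) (Fin 2) (Adl ℚ)) i j).1 Rat.infinitePlace) := rfl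
  rw [h3, ← InfinitePlace.Completion.extensionEmbeddingOfIsReal_apply
    Rat.isReal_infinitePlace, ← h1] at h2
  rw [coe_scalar]
  by_cases hij : i = j
  · subst hij
    rw [Matrix.diagonal_apply_eq] at h2
    simp only [Matrix.scalar_apply, Matrix.diagonal_apply_eq, Units.val_mk0]
    exact_mod_cast h2
  · rw [Matrix.diagonal_apply_ne _ hij] at h2
    simp only [Matrix.scalar_apply, Matrix.diagonal_apply_ne _ hij]
    exact_mod_cast h2

/-- The component at `w` of the ray generator of `F` is the positive real scalar `t'`,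
`t' ^ (2 [F : ℚ]) = 2`. -/
theorem ray_scalarFU750 {F : Type} [Field F] [NumberField F] (R : Frame5 F) (hR : IsFrame5 R)
    (w : InfinitePlace F) :
    ∃ u : ℝˣ, 0 < (u : ℝ) ∧ (u : ℝ) ^ (2 * Module.finrank ℚ F) = 2 ∧
      infGL305 w R.r = scalar (Fin 2) (Units.map ((algebraMap ℝ ℂ : ℝ →+* ℂ) : ℝ →* ℂ) u) := by
  obtain ⟨_, t, ht0, ht2, hinf⟩ := hR.ray
  refine ⟨Units.mk0 t ht0.ne', ht0, ht2, ?_⟩
  apply Matrix.GeneralLinearGroup.ext
  intro i j
  have h2 := congrFun (congrFun (hinf w) i) j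
  have h3 : infComp w R.r i j = ((infGL305 w R.r : GL (Fin 2) ℂ) i j : ℂ) := rfl
  rw [h3] at h2
  rw [h2, coe_scalar]
  by_cases hij : i = j
  · subst hij
    simp only [Matrix.scalar_apply, Matrix.diagonal_apply_eq, Units.coe_map, Units.val_mk0,
      MonoidHom.coe_coe, Complex.coe_algebraMap]
  · simp only [Matrix.scalar_apply, Matrix.diagonal_apply_ne _ hij]

/-- The component at `w` of a rational element is its image under the embedding. -/
theorem infGL_ratGU750 {F : Type} [Field F] [NumberField F] (w : InfinitePlace F)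
    (δ : GL (Fin 2) F) :
    infGL305 w (T5.ratG δ) = Matrix.GeneralLinearGroup.map w.embedding δ := by
  apply Matrix.GeneralLinearGroup.ext
  intro i j
  show InfinitePlace.Completion.extensionEmbedding w
      (((δ : Matrix (Fin 2) (Fin 2) F) i j : F) : w.Completion) = w.embedding _
  exact InfinitePlace.Completion.extensionEmbedding_coe w _

/-- ONE infinite place, complex, `σ ≠ 1`: `w ∘ σ = conj ∘ w`. -/
theorem embedding_comp_autU750 {F : Type} [Field F] [NumberField F]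
    (h1 : Nat.card (InfinitePlace F) = 1) (s : F ≃+* F) (hs : ∃ x : F, s x ≠ x)
    (w : InfinitePlace F) (x : F) :
    w.embedding (s x) = conj (w.embedding x) := by
  have : Subsingleton (InfinitePlace F) := (Nat.card_eq_one_iff_unique.mp h1).1
  have hmk : InfinitePlace.mk w.embedding
      = InfinitePlace.mk (w.embedding.comp (s : F →+* F)) := Subsingleton.elim _ _
  rcases InfinitePlace.mk_eq_iff.mp hmk with h | h
  · exfalso
    obtain ⟨y, hy⟩ := hs
    apply hy
    have := congrArg (fun f : F →+* ℂ => f y) h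
    exact (w.embedding.injective this).symm
  · have := congrArg (fun f : F →+* ℂ => f x) h
    simp only [ComplexEmbedding.conjugate_coe_eq] at this
    exact this.symm

/-- **THE NORM IDENTITY AT THE INFINITE PLACE**: `N (δ r'^j)_w = (γ_∞ t^j)_ℂ`, `t^j` a scalar
matrix of `GL₂(ℝ)`. -/
theorem twNorm_rayU750 (F : Type) [Field F] [NumberField F] (hIQ : IsImagQuad F)
    (D : CompData ℚ F) (hD : IsCompData D) (hcyc : IsCycExt ℚ F D.l) (hl2 : D.l = 2)
    (δ : GL (Fin 2) F) (γ : GL (Fin 2) ℚ)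
    (hnorm : D.s.normUpTo D.l δ = Matrix.GeneralLinearGroup.map (algebraMap ℚ F) γ)
    (w : InfinitePlace F) :
    ∃ u : ℝˣ, ∀ j : ℤ,
      T6.twNorm (starRingAut : ℂ ≃+* ℂ) 2 (infGL305 w (T5.ratG δ * D.R'.r ^ j))
        = Matrix.GeneralLinearGroup.map (algebraMap ℝ ℂ)
            (reGLQ298 (T5.ratG γ) * scalar (Fin 2) (u ^ j)) := by
  obtain ⟨u, hu, hu2, _hρ⟩ := ray_scalarQU750 D.R hD.frame
  obtain ⟨u', hu', hu'4, hρ'⟩ := ray_scalarFU750 D.R' hD.frame' w
  refine ⟨u, fun j => ?_⟩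
  have hdeg : Module.finrank ℚ F = 2 := by rw [hcyc.degree, hl2]
  have huu : u' ^ 2 = u := by
    apply Units.ext
    rw [Units.val_pow_eq_pow_val]
    rw [hdeg] at hu'4
    have h4 : ((u' : ℝ) ^ 2) ^ 2 = (u : ℝ) ^ 2 := by
      rw [hu2, ← pow_mul]
      exact hu'4
    exact (pow_left_inj₀ (by positivity) hu.le two_ne_zero).mp h4
  have huj : u' ^ j * u' ^ j = u ^ j := by
    rw [← mul_zpow, ← pow_two, huu]
  set Z : GL (Fin 2) ℂ :=
    scalar (Fin 2) (Units.map ((algebraMap ℝ ℂ : ℝ →+* ℂ) : ℝ →* ℂ) (u' ^ j)) with hZ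
  have hδ' : infGL305 w (T5.ratG δ * D.R'.r ^ j)
      = Matrix.GeneralLinearGroup.map w.embedding δ * Z := by
    rw [map_mul, map_zpow, hρ', infGL_ratGU750, ← map_zpow, ← map_zpow]
  have hZc : ∀ x : GL (Fin 2) ℂ, Z * x = x * Z := fun x => scalar_commute _ x
  have hsZ : T6.glAut (starRingAut : ℂ ≃+* ℂ) Z = Z := by
    show Matrix.GeneralLinearGroup.map ((starRingAut : ℂ ≃+* ℂ) : ℂ →+* ℂ) (scalar (Fin 2) _)
      = scalar (Fin 2) _
    rw [map_scalarU750]
    congr 1
    apply Units.ext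
    show (starRingAut : ℂ ≃+* ℂ) (algebraMap ℝ ℂ ((u' ^ j : ℝˣ) : ℝ)) = _
    exact Complex.conj_ofReal _
  have hZZ : Z * Z = Matrix.GeneralLinearGroup.map (algebraMap ℝ ℂ) (scalar (Fin 2) (u ^ j)) := by
    rw [hZ, ← map_mul, ← map_mul, huj, map_scalarU750]
  have hsig : ∃ x : F, D.s.σ x ≠ x := by
    obtain ⟨x, hx⟩ := hD.cyc.faithful 1 one_pos (by rw [hl2]; norm_num)
    exact ⟨x, by simpa using hx⟩
  have hsA : T6.glAut (starRingAut : ℂ ≃+* ℂ) (Matrix.GeneralLinearGroup.map w.embedding δ)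
      = Matrix.GeneralLinearGroup.map w.embedding (D.s.onRat δ) := by
    apply Matrix.GeneralLinearGroup.ext
    intro a b
    show (starRingAut : ℂ ≃+* ℂ) (w.embedding ((δ : Matrix (Fin 2) (Fin 2) F) a b))
      = w.embedding (D.s.σ ((δ : Matrix (Fin 2) (Fin 2) F) a b))
    exact (embedding_comp_autU750 hIQ.1 D.s.σ hsig w _).symm
  have hN2 : D.s.normUpTo 2 δ = δ * D.s.onRat δ := by
    show δ * D.s.onRat (δ * D.s.onRat 1) = δ * D.s.onRat δ
    rw [map_one, mul_one]
  have hAA : Matrix.GeneralLinearGroup.map w.embedding δ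
        * Matrix.GeneralLinearGroup.map w.embedding (D.s.onRat δ)
      = Matrix.GeneralLinearGroup.map (algebraMap ℝ ℂ) (reGLQ298 (T5.ratG γ)) := by
    have hnorm2 : D.s.normUpTo 2 δ = Matrix.GeneralLinearGroup.map (algebraMap ℚ F) γ := by
      have h := hnorm
      rw [hl2] at h
      exact h
    rw [← map_mul, ← hN2, hnorm2, map_mapU750]
    show _ = Matrix.GeneralLinearGroup.map (algebraMap ℝ ℂ)
      (Matrix.GeneralLinearGroup.map reHomQ298
        (Matrix.GeneralLinearGroup.map (algebraMap ℚ (Adl ℚ)) γ))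
    rw [map_mapU750, map_mapU750]
    exact congrArg (fun f : ℚ →+* ℂ => Matrix.GeneralLinearGroup.map f γ) (RingHom.ext_rat _ _)
  rw [hδ', twNorm_twoU750, map_one, mul_one, map_mul, hsZ, hsA, map_mul, ← hAA, ← hZZ]
  rw [mul_assoc, ← mul_assoc Z, hZc, mul_assoc, ← mul_assoc]

/-- **LEAF B.3 = ARCH-INTBL-UP (twisted)**, verbatim. -/
theorem archIntblUpQC750 (F : Type) [Field F] [NumberField F] : H1U.ArchIntblUpQC F := by
  intro _hT6 hIQ D hD hcyc hl2 μc hμc m Φ hΦ δ γ hell hnorm L hL w β' Jc hA j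
  obtain ⟨hβ'c, hβ'n, hβ'int, _hJ⟩ := hA
  obtain ⟨u, hN⟩ := twNorm_rayU750 F hIQ D hD hcyc hl2 δ γ hnorm w
  have hreg0 : T6.IsReg (reGLQ298 (T5.ratG γ)) :=
    isReg_mapU750 reHomQ298 _ (isReg_mapU750 (algebraMap ℚ (Adl ℚ)) γ hell.1)
  have hreg : T6.IsReg (reGLQ298 (T5.ratG γ) * scalar (Fin 2) (u ^ j)) :=
    isReg_mul_scalarU750 _ _ hreg0
  exact twArchIntegrable_central750 (reGLQ298 (T5.ratG γ)) (scalar (Fin 2) (u ^ j))
    (fun x => ((scalar_commute _ x).symm : x * scalar (Fin 2) (u ^ j) = _)) hreg μc hμc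
    L.μtr hL.torr _ (hN j) β' hβ'c hβ'n hβ'int (Φ w) (hΦ w).1 (hΦ w).2

end Fermat.Agent.LT.T7.H750

end
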