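import Mathlib
import Fermat.Agent.LT.T7.H1U.FactIntUpQSpec

/-!
# Row LT, tower T7, F/Q mirror, node U.3 `H1U.FactIntUpQC` (registry row 2787, helper1),
# LEAF B.2 `H1U.RayFinUpQC` (helper750), OFF-MAIN

`rayFinUpQC750 F : H1U.RayFinUpQC F` VERBATIM vs `T7/H1U/FactIntUpQSpec.lean` (helper1),
UNCONDITIONAL, every number field `F`.

Proof.  `|det (x⁻¹ g conj(x))| = |det g|` (`det (conj x) = conj (det x)`), the component of the
ray generator at `w` is the scalar `t > 0`, `t^(2 [F:ℚ]) = 2`, so `|det (δ r^j)_w| = |det δ_w|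
t^{2j}` with `t² ≠ 1`; `log |det|` is bounded on the compact support of `Φ`.
`exists_finset_ray_tw750` is Mathlib only (plus `T6.glAut` by `rfl`).
-/

set_option autoImplicit false

open AutomorphicForm IsDedekindDomain NumberField MeasureTheory
open scoped ComplexConjugate

noncomputable section

namespace Fermat.Agent.LT.T7.H750

open Fermat.Agent.LT Fermat.Agent.LT.H556 Fermat.Agent.LT.H556.A0 Fermat.Agent.LT.T7
open Fermat.Agent.LT.T7.H305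

theorem det_ne_zeroR750 (h : GL (Fin 2) ℂ) : (h : Matrix (Fin 2) (Fin 2) ℂ).det ≠ 0 :=
  ((Matrix.isUnit_iff_isUnit_det _).mp h.isUnit).ne_zero

theorem det_zpowR750 (z : GL (Fin 2) ℂ) (m : ℤ) :
    ((z ^ m : GL (Fin 2) ℂ) : Matrix (Fin 2) (Fin 2) ℂ).det
      = (z : Matrix (Fin 2) (Fin 2) ℂ).det ^ m := by
  have h := congrArg Units.val (map_zpow Matrix.GeneralLinearGroup.det z m)
  rw [Units.val_zpow_eq_zpow_val] at h
  exact h

/-- The determinant of the conjugate matrix. -/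
theorem det_glAut_starR750 (y : GL (Fin 2) ℂ) :
    ((T6.glAut (starRingAut : ℂ ≃+* ℂ) y : GL (Fin 2) ℂ) : Matrix (Fin 2) (Fin 2) ℂ).det
      = conj ((y : Matrix (Fin 2) (Fin 2) ℂ).det) := by
  have he : ∀ i j : Fin 2,
      ((T6.glAut (starRingAut : ℂ ≃+* ℂ) y : GL (Fin 2) ℂ) : Matrix (Fin 2) (Fin 2) ℂ) i j
        = conj ((y : Matrix (Fin 2) (Fin 2) ℂ) i j) := fun i j => rfl
  rw [Matrix.det_fin_two, Matrix.det_fin_two]
  simp only [he, map_sub, map_mul]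

/-- The norm of the determinant is constant on twisted conjugacy classes. -/
theorem norm_det_twconjR750 (g y : GL (Fin 2) ℂ) :
    ‖((y⁻¹ * g * T6.glAut (starRingAut : ℂ ≃+* ℂ) y : GL (Fin 2) ℂ) :
        Matrix (Fin 2) (Fin 2) ℂ).det‖ = ‖(g : Matrix (Fin 2) (Fin 2) ℂ).det‖ := by
  have hy : ‖(y : Matrix (Fin 2) (Fin 2) ℂ).det‖ ≠ 0 :=
    norm_ne_zero_iff.mpr (det_ne_zeroR750 y)
  have hinv : ((y⁻¹ : GL (Fin 2) ℂ) : Matrix (Fin 2) (Fin 2) ℂ).det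
      * (y : Matrix (Fin 2) (Fin 2) ℂ).det = 1 := by
    rw [← Matrix.det_mul, ← Units.val_mul, inv_mul_cancel, Units.val_one, Matrix.det_one]
  have hinv' : ‖((y⁻¹ : GL (Fin 2) ℂ) : Matrix (Fin 2) (Fin 2) ℂ).det‖
      * ‖(y : Matrix (Fin 2) (Fin 2) ℂ).det‖ = 1 := by
    rw [← norm_mul, hinv, norm_one]
  rw [Units.val_mul, Units.val_mul, Matrix.det_mul, Matrix.det_mul, det_glAut_starR750,
    norm_mul, norm_mul, Complex.norm_conj]
  calc ‖((y⁻¹ : GL (Fin 2) ℂ) : Matrix (Fin 2) (Fin 2) ℂ).det‖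
        * ‖(g : Matrix (Fin 2) (Fin 2) ℂ).det‖ * ‖(y : Matrix (Fin 2) (Fin 2) ℂ).det‖
      = (‖((y⁻¹ : GL (Fin 2) ℂ) : Matrix (Fin 2) (Fin 2) ℂ).det‖
          * ‖(y : Matrix (Fin 2) (Fin 2) ℂ).det‖) * ‖(g : Matrix (Fin 2) (Fin 2) ℂ).det‖ := by
        ring
    _ = ‖(g : Matrix (Fin 2) (Fin 2) ℂ).det‖ := by rw [hinv', one_mul]

/-- The ray meets the support finitely often, uniformly on the TWISTED conjugacy class. -/
theorem exists_finset_ray_tw750 (Φ : GL (Fin 2) ℂ → ℂ) (hΦc : HasCompactSupport Φ)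
    (g z : GL (Fin 2) ℂ) (hz : ‖(z : Matrix (Fin 2) (Fin 2) ℂ).det‖ ≠ 1) :
    ∃ J : Finset ℤ, ∀ m : ℤ, m ∉ J → ∀ y : GL (Fin 2) ℂ,
      Φ (y⁻¹ * (g * z ^ m) * T6.glAut (starRingAut : ℂ ≃+* ℂ) y) = 0 := by
  have hcont : Continuous fun h : GL (Fin 2) ℂ =>
      Real.log ‖(h : Matrix (Fin 2) (Fin 2) ℂ).det‖ :=
    (Units.continuous_val.matrix_det.norm).log fun h =>
      norm_ne_zero_iff.mpr (det_ne_zeroR750 h)
  obtain ⟨B, hB⟩ := hΦc.isCompact.exists_bound_of_continuousOn hcont.continuousOn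
  set ρ : ℝ := ‖(z : Matrix (Fin 2) (Fin 2) ℂ).det‖ with hρ
  have hρ0 : 0 < ρ := norm_pos_iff.mpr (det_ne_zeroR750 z)
  have hlρ : Real.log ρ ≠ 0 := Real.log_ne_zero_of_pos_of_ne_one hρ0 hz
  have hlρ' : 0 < |Real.log ρ| := abs_pos.mpr hlρ
  set lg : ℝ := Real.log ‖(g : Matrix (Fin 2) (Fin 2) ℂ).det‖ with hlg
  obtain ⟨N, hN⟩ := exists_nat_ge ((B + |lg|) / |Real.log ρ|)
  refine ⟨Finset.Icc (-(N : ℤ)) N, fun m hm y => ?_⟩
  by_contra hne
  apply hm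
  have hmem : y⁻¹ * (g * z ^ m) * T6.glAut (starRingAut : ℂ ≃+* ℂ) y ∈ tsupport Φ :=
    subset_tsupport Φ hne
  have hb := hB _ hmem
  have hdet : ‖((y⁻¹ * (g * z ^ m) * T6.glAut (starRingAut : ℂ ≃+* ℂ) y : GL (Fin 2) ℂ) :
      Matrix (Fin 2) (Fin 2) ℂ).det‖ = ‖(g : Matrix (Fin 2) (Fin 2) ℂ).det‖ * ρ ^ m := by
    rw [norm_det_twconjR750, Units.val_mul, Matrix.det_mul, det_zpowR750, norm_mul, norm_zpow]
  have hlog : Real.log ‖((y⁻¹ * (g * z ^ m) * T6.glAut (starRingAut : ℂ ≃+* ℂ) y :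
      GL (Fin 2) ℂ) : Matrix (Fin 2) (Fin 2) ℂ).det‖ = lg + m * Real.log ρ := by
    rw [hdet, Real.log_mul (norm_ne_zero_iff.mpr (det_ne_zeroR750 g))
      (zpow_ne_zero _ hρ0.ne'), Real.log_zpow]
  rw [hlog, Real.norm_eq_abs] at hb
  have h3 : |(m : ℝ)| * |Real.log ρ| ≤ B + |lg| := by
    rw [← abs_mul]
    calc |(m : ℝ) * Real.log ρ| = |(lg + m * Real.log ρ) - lg| := by ring_nf
      _ ≤ |lg + m * Real.log ρ| + |lg| := abs_sub _ _
      _ ≤ B + |lg| := by linarith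
  have h4 : |(m : ℝ)| ≤ N := by
    calc |(m : ℝ)| ≤ (B + |lg|) / |Real.log ρ| := (le_div_iff₀ hlρ').mpr h3
      _ ≤ N := hN
  have h5 := abs_le.mp h4
  rw [Finset.mem_Icc]
  constructor
  · exact_mod_cast h5.1
  · exact_mod_cast h5.2

/-- **LEAF B.2 = RAY-FIN-UP (twisted)**, verbatim. -/
theorem rayFinUpQC750 (F : Type) [Field F] [NumberField F] : H1U.RayFinUpQC F := by
  intro r hr Φ _hΦ hΦc w δ
  obtain ⟨-, t, ht0, ht2, ht⟩ := hr
  have hmat : ((infGL305 w r : GL (Fin 2) ℂ) : Matrix (Fin 2) (Fin 2) ℂ) = (t : ℂ) • 1 := by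
    have h1 : ((infGL305 w r : GL (Fin 2) ℂ) : Matrix (Fin 2) (Fin 2) ℂ) = infComp w r := rfl
    rw [h1, ht w]
    ext i j
    fin_cases i <;> fin_cases j <;> simp
  have hdet : ‖((infGL305 w r : GL (Fin 2) ℂ) : Matrix (Fin 2) (Fin 2) ℂ).det‖ ≠ 1 := by
    rw [hmat, Matrix.det_smul, Matrix.det_one, mul_one, Fintype.card_fin, norm_pow,
      Complex.norm_real, Real.norm_of_nonneg ht0.le]
    intro h1
    have h2 : (t ^ 2) ^ Module.finrank ℚ F = 2 := by rw [← pow_mul]; exact ht2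
    rw [h1, one_pow] at h2
    norm_num at h2
  obtain ⟨J, hJ⟩ := exists_finset_ray_tw750 Φ hΦc (infGL305 w (T5.ratG δ)) (infGL305 w r) hdet
  refine ⟨J, fun j hj x => ?_⟩
  have he : infGL305 w (T5.ratG δ * r ^ j) = infGL305 w (T5.ratG δ) * (infGL305 w r) ^ j := by
    rw [map_mul, map_zpow]
  rw [he]
  exact hJ j hj x

end Fermat.Agent.LT.T7.H750

end
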